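import Fermat.Agent.Ihara.Square
import Mathlib.NumberTheory.LegendreSymbol.QuadraticReciprocity

/-!
# Ihara's lemma: vanishing on `Γ₁(N)` over `ℤ[1/q]`
-/

set_option autoImplicit false

open scoped MatrixGroups

namespace Fermat.Agent.Ihara

variable {A : Type*} [AddCommGroup A] {N q p : ℕ} {φ : SL(2, ℚ) → A}

/-- `(r, D)` is a pair of primes with `r ≡ 1 (mod 4)`, `D ≡ 1 (mod N)`, `r` a non-square mod `D`. -/
structure GoodPair (N q r D : ℕ) : Prop where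
  hr : r.Prime
  hD : D.Prime
  hr4 : r % 4 = 1
  hD2 : D ≠ 2
  hrN : ¬ r ∣ N
  hDN : ¬ D ∣ N
  hD1 : (N : ℤ) ∣ (D : ℤ) - 1
  hne : r ≠ D
  hns : ¬ IsSquare (r : ZMod D)

theorem GoodPair.symm_ns {r D : ℕ} (g : GoodPair N q r D) : ¬ IsSquare (D : ZMod r) := by
  have := Fact.mk g.hr
  have := Fact.mk g.hD
  exact fun hs => g.hns ((ZMod.exists_sq_eq_prime_iff_of_mod_four_eq_one g.hr4 g.hD2).mp hs)

theorem GoodPair.mk' {r D : ℕ} (hr : r.Prime) (hD : D.Prime) (hr4 : r % 4 = 1) (hD2 : D ≠ 2)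
    (hrN : ¬ r ∣ N) (hDN : ¬ D ∣ N) (hD1 : (N : ℤ) ∣ (D : ℤ) - 1) (hne : r ≠ D)
    (hns : ¬ IsSquare (D : ZMod r)) : GoodPair N q r D := by
  have := Fact.mk hr
  have := Fact.mk hD
  exact ⟨hr, hD, hr4, hD2, hrN, hDN, hD1, hne,
    fun hs => hns ((ZMod.exists_sq_eq_prime_iff_of_mod_four_eq_one hr4 hD2).mpr hs)⟩

theorem not_dvd_prime {D r : ℕ} (hD : D.Prime) (hr : r.Prime) (hne : r ≠ D) :
    ¬ (D : ℤ) ∣ (r : ℤ) := fun hd =>
  hne ((Nat.prime_dvd_prime_iff_eq hD hr).mp (Int.natCast_dvd_natCast.mp hd)).symm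

/-- A prime in two prescribed classes. -/
theorem exists_prime_two {a b m n : ℕ} (hm : m ≠ 0) (hn : n ≠ 0) (hmn : m.Coprime n)
    (ha : a.Coprime m) (hb : b.Coprime n) (B : ℕ) :
    ∃ P : ℕ, B < P ∧ P.Prime ∧ P ≡ a [MOD m] ∧ P ≡ b [MOD n] := by
  obtain ⟨c, h1, h2⟩ := Nat.chineseRemainder hmn a b
  have hc : c.Coprime (m * n) := by
    refine Nat.Coprime.mul_right ?_ ?_
    · rw [Nat.coprime_iff_gcd_eq_one, h1.gcd_eq]; exact ha
    · rw [Nat.coprime_iff_gcd_eq_one, h2.gcd_eq]; exact hb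
  obtain ⟨P, hB, hP, hPm⟩ := Nat.forall_exists_prime_gt_and_modEq B (Nat.mul_ne_zero hm hn) hc
  exact ⟨P, hB, hP, (hPm.of_dvd (dvd_mul_right m n)).trans h1,
    (hPm.of_dvd (dvd_mul_left n m)).trans h2⟩

namespace IsQHom

variable (h : IsQHom N q p φ)
include h

theorem rowVal_congr_D {D D' n : ℤ} (hcop : IsCoprime D ((N : ℤ) * n))
    (hd : (N : ℤ) * n ∣ D' - D) : rowVal φ N q D' n = rowVal φ N q D n := by
  obtain ⟨T, hT, h10, h11⟩ := exists_row N q hcop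
  obtain ⟨k, hk⟩ := hd
  rw [← h.rowVal_eq hT h10 h11, ← h.mul_unip_right hT (upU_mem (int_mem_qInts q k))
    (by simp only [upU00, upU11]; norm_num)]
  refine (h.rowVal_eq (mul_mem hT (upU_mem (int_mem_qInts q k))) ?_ ?_).symm
  · rw [mul10, h10, upU00, upU10]; ring
  · rw [mul11, h10, h11, upU01, upU11]
    have : (D' : ℚ) - D = (N : ℚ) * n * k := by exact_mod_cast hk
    linear_combination -this

theorem rowVal_same_D {D r r' : ℕ} (g : GoodPair N q r D) (g' : GoodPair N q r' D) :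
    rowVal φ N q D r' = rowVal φ N q D r := by
  have : Fact D.Prime := ⟨g.hD⟩
  have h0 : (r : ZMod D) ≠ 0 := by
    rw [Ne, ← Int.cast_natCast, ZMod.intCast_zmod_eq_zero_iff_dvd]
    exact not_dvd_prime g.hD g.hr g.hne
  have h0' : (r' : ZMod D) ≠ 0 := by
    rw [Ne, ← Int.cast_natCast, ZMod.intCast_zmod_eq_zero_iff_dvd]
    exact not_dvd_prime g'.hD g'.hr g'.hne
  have hsq : IsSquare ((r' : ZMod D) / r) := by
    rw [← quadraticChar_one_iff_isSquare (F := ZMod D) (div_ne_zero h0' h0)]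
    have e : quadraticChar (ZMod D) ((r' : ZMod D) / r) * quadraticChar (ZMod D) (r : ZMod D)
        = quadraticChar (ZMod D) (r' : ZMod D) := by rw [← _root_.map_mul, div_mul_cancel₀ _ h0]
    rw [quadraticChar_neg_one_iff_not_isSquare.mpr g.hns,
      quadraticChar_neg_one_iff_not_isSquare.mpr g'.hns] at e
    linarith
  obtain ⟨z, hz⟩ := hsq
  have hz0 : z ≠ 0 := by
    rintro rfl
    rw [mul_zero] at hz
    exact div_ne_zero h0' h0 hz
  have hzv : ¬ (D : ℤ) ∣ (z.val : ℤ) := by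
    rw [← ZMod.intCast_zmod_eq_zero_iff_dvd]; simp [hz0]
  have hrz : ¬ (D : ℤ) ∣ (r : ℤ) * (z.val : ℤ) ^ 2 := by
    rw [← ZMod.intCast_zmod_eq_zero_iff_dvd]; simp [h0, hz0]
  rw [← h.rowVal_mul_sq g.hD g.hDN (not_dvd_prime g.hD g.hr g.hne) hzv]
  refine h.rowVal_congr (isCoprime_row g.hD g.hDN hrz) ?_
  rw [← ZMod.intCast_eq_intCast_iff_dvd_sub]
  simp only [Int.cast_mul, Int.cast_natCast, ZMod.natCast_zmod_val, sq, ← hz]
  field_simp

theorem rowVal_join {r D r' D' : ℕ} (g : GoodPair N q r D) (g' : GoodPair N q r' D')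
    (hrr : r ≠ r') : rowVal φ N q D r = rowVal φ N q D' r' := by
  have := Fact.mk g.hr
  have := Fact.mk g'.hr
  have hDr : D.Coprime r := (Nat.coprime_primes g.hD g.hr).mpr g.hne.symm
  have hD'r : D'.Coprime r' := (Nat.coprime_primes g'.hD g'.hr).mpr g'.hne.symm
  have hrr' : r.Coprime r' := (Nat.coprime_primes g.hr g'.hr).mpr hrr
  obtain ⟨c, hc, hc'⟩ := Nat.chineseRemainder hrr' D D'
  have hcc : c.Coprime (r * r') := by
    refine Nat.Coprime.mul_right ?_ ?_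
    · rw [Nat.coprime_iff_gcd_eq_one, hc.gcd_eq]; exact hDr
    · rw [Nat.coprime_iff_gcd_eq_one, hc'.gcd_eq]; exact hD'r
  obtain ⟨E, hEb, hE, hEm, hEN⟩ := exists_prime_two
    (Nat.mul_ne_zero g.hr.ne_zero g'.hr.ne_zero) h.hN
    (Nat.Coprime.mul_left ((g.hr.coprime_iff_not_dvd).mpr g.hrN)
      ((g'.hr.coprime_iff_not_dvd).mpr g'.hrN)) hcc (Nat.coprime_one_left N) (r + r' + N + 2)
  have hEN' : ¬ E ∣ N := fun hd => by
    have := Nat.le_of_dvd (Nat.pos_of_ne_zero h.hN) hd; omega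
  have hE1 : (N : ℤ) ∣ (E : ℤ) - 1 := by
    exact_mod_cast (Int.natCast_modEq_iff.mpr hEN).symm.dvd
  have hEr : E ≡ D [MOD r] := (hEm.of_dvd (dvd_mul_right r r')).trans hc
  have hEr' : E ≡ D' [MOD r'] := (hEm.of_dvd (dvd_mul_left r' r)).trans hc'
  have gE : GoodPair N q r E := GoodPair.mk' g.hr hE g.hr4 (by omega) g.hrN hEN' hE1 (by omega)
    (by rw [(ZMod.natCast_eq_natCast_iff _ _ _).mpr hEr]; exact g.symm_ns)
  have gE' : GoodPair N q r' E := GoodPair.mk' g'.hr hE g'.hr4 (by omega) g'.hrN hEN' hE1 (by omega)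
    (by rw [(ZMod.natCast_eq_natCast_iff _ _ _).mpr hEr']; exact g'.symm_ns)
  have combine : ∀ {a b : ℕ}, a.Prime → ¬ a ∣ N → (N : ℤ) ∣ (b : ℤ) - 1 → E ≡ b [MOD a] →
      (N : ℤ) * (a : ℤ) ∣ (E : ℤ) - b := by
    intro a b ha haN hb hEb
    refine (Nat.Coprime.isCoprime ((ha.coprime_iff_not_dvd).mpr haN).symm).mul_dvd ?_
      (Int.natCast_modEq_iff.mpr hEb).symm.dvd
    convert dvd_sub hE1 hb using 1; ring
  rw [← h.rowVal_congr_D (isCoprime_row g.hD g.hDN (not_dvd_prime g.hD g.hr g.hne))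
      (combine g.hr g.hrN g.hD1 hEr),
    ← h.rowVal_congr_D (isCoprime_row g'.hD g'.hDN (not_dvd_prime g'.hD g'.hr g'.hne))
      (combine g'.hr g'.hrN g'.hD1 hEr')]
  exact h.rowVal_same_D gE' gE

theorem rowVal_good {r D : ℕ} (g : GoodPair N q r D) : rowVal φ N q D r = 0 := by
  have := Fact.mk g.hr
  have := Fact.mk g.hD
  have hrD : ¬ (D : ℤ) ∣ (r : ℤ) := not_dvd_prime g.hD g.hr g.hne
  obtain ⟨a, b, hab⟩ := isCoprime_row g.hD g.hDN hrD
  obtain ⟨T, hT, h10, h11⟩ := exists_row N q (isCoprime_row g.hD g.hDN hrD)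
  have h4 : Nat.Coprime (4 * N) r :=
    Nat.Coprime.mul_left
      (((Nat.coprime_primes Nat.prime_two g.hr).mpr (by have := g.hr4; omega)).pow_left 2)
      ((g.hr.coprime_iff_not_dvd).mpr g.hrN).symm
  have har : ((a : ZMod r)) * (D : ZMod r) = 1 := by
    have := congrArg (fun z : ℤ => (z : ZMod r)) hab
    push_cast at this
    simpa using this
  have hcopa : ((a : ZMod r).val).Coprime r := by
    refine (g.hr.coprime_iff_not_dvd.mpr fun hd => ?_).symm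
    have : (a : ZMod r) = 0 := by
      rw [← ZMod.natCast_zmod_val (a : ZMod r)]; exact (ZMod.natCast_eq_zero_iff _ _).mpr hd
    simp [this] at har
  obtain ⟨P, hPb, hP, hP4, hPr⟩ := exists_prime_two (Nat.mul_ne_zero (by norm_num) h.hN)
    g.hr.ne_zero h4 (Nat.coprime_one_left _) hcopa (r + N + D + 2)
  have hP1 : (N : ℤ) ∣ (P : ℤ) - 1 := by
    exact_mod_cast (Int.natCast_modEq_iff.mpr (hP4.of_dvd (dvd_mul_left N 4))).symm.dvd
  have hP41 : P % 4 = 1 := hP4.of_dvd (dvd_mul_right 4 N)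
  have hPN : ¬ P ∣ N := fun hd => by
    have := Nat.le_of_dvd (Nat.pos_of_ne_zero h.hN) hd; omega
  have hPa : (P : ZMod r) = (a : ZMod r) := by
    rw [(ZMod.natCast_eq_natCast_iff _ _ _).mpr hPr, ZMod.natCast_zmod_val]
  have gP : GoodPair N q r P := GoodPair.mk' g.hr hP g.hr4 (by omega) g.hrN hPN hP1 (by omega) (by
    rintro ⟨z, hz⟩
    apply g.symm_ns
    rw [hPa] at hz
    refine ⟨z⁻¹, ?_⟩
    rw [← mul_inv, ← hz, eq_inv_of_mul_eq_one_right har])
  -- `T⁻¹` realises `(−N r, P)`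
  have hT00 : ((N : ℤ) * r) ∣ (a : ℤ) - P := by
    refine (Nat.Coprime.isCoprime ((g.hr.coprime_iff_not_dvd).mpr g.hrN).symm).mul_dvd ?_ ?_
    · have h1 : (N : ℤ) ∣ a - 1 := by
        have e : a - 1 = -(a * ((D : ℤ) - 1)) - b * r * N := by linear_combination hab
        rw [e]
        exact dvd_sub (g.hD1.mul_left a).neg_right (dvd_mul_left _ _)
      convert dvd_sub h1 hP1 using 1; ring
    · rw [← ZMod.intCast_eq_intCast_iff_dvd_sub]; simpa using hPa
  obtain ⟨k, hk⟩ := hT00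
  have hdetT := det_eq T
  have habQ : (a : ℚ) * D + b * ((N : ℚ) * r) = 1 := by exact_mod_cast hab
  rw [h10, h11] at hdetT
  push_cast at hdetT
  -- `T 0 0 ≡ a (mod N r)`
  set z : ℚ := T 0 1 * (a : ℚ) + T 0 0 * (b : ℚ) with hz
  have hT00' : T 0 0 - (a : ℚ) = (N : ℚ) * r * z := by
    rw [hz]; linear_combination (a : ℚ) * hdetT - T 0 0 * habQ
  have hzm : z + k ∈ qInts q := by
    obtain ⟨m0, m1, -, -⟩ := mem_SGamma_iff.mp hT
    exact add_mem (add_mem (mul_mem m1 (int_mem_qInts q a)) (mul_mem m0 (int_mem_qInts q b)))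
      (int_mem_qInts q k)
  have hneg : rowVal φ N q P (-(r : ℤ)) = -rowVal φ N q D r := by
    rw [← h.rowVal_eq hT h10 h11, ← h.map_inv hT, ← h.mul_unip_right (inv_mem hT) (upU_mem hzm)
      (by simp only [upU00, upU11]; norm_num)]
    refine (h.rowVal_eq (mul_mem (inv_mem hT) (upU_mem hzm)) ?_ ?_).symm
    · rw [mul10, inv10, h10, upU00, upU10]; push_cast; ring
    · rw [mul11, inv10, inv11, h10, upU01, upU11]
      have hkQ : (a : ℚ) - P = (N : ℚ) * r * k := by exact_mod_cast hk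
      push_cast
      linear_combination hT00' + hkQ
  have := Fact.mk hP
  obtain ⟨i, hi⟩ := (ZMod.exists_sq_eq_neg_one_iff (p := P)).mpr (by omega)
  have hrP : ¬ (P : ℤ) ∣ (r : ℤ) := not_dvd_prime hP g.hr (by omega)
  have hpos : rowVal φ N q P (-(r : ℤ)) = rowVal φ N q P r := by
    have hi0 : i ≠ 0 := by
      rintro rfl; simp at hi
    have hiv : ¬ (P : ℤ) ∣ (i.val : ℤ) := by
      rw [← ZMod.intCast_zmod_eq_zero_iff_dvd]; simp [hi0]
    have hr0 : (r : ZMod P) ≠ 0 := by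
      rw [Ne, ← Int.cast_natCast, ZMod.intCast_zmod_eq_zero_iff_dvd]; exact hrP
    have hrz : ¬ (P : ℤ) ∣ (r : ℤ) * (i.val : ℤ) ^ 2 := by
      rw [← ZMod.intCast_zmod_eq_zero_iff_dvd]; simp [hr0, hi0]
    rw [← h.rowVal_mul_sq hP hPN hrP hiv]
    refine h.rowVal_congr (isCoprime_row hP hPN hrz) ?_
    rw [← ZMod.intCast_eq_intCast_iff_dvd_sub]
    simp [sq, ← hi]
  obtain ⟨r', hr'b, hr', hr'4, hr'D⟩ := exists_prime_two (a := 1) (b := r) (m := 4) (n := D)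
    (by norm_num) g.hD.ne_zero
    (((Nat.coprime_primes Nat.prime_two g.hD).mpr (Ne.symm g.hD2)).pow_left 2)
    (Nat.coprime_one_left _) ((Nat.coprime_primes g.hr g.hD).mpr g.hne) (r + N + D)
  have g' : GoodPair N q r' D := ⟨hr', g.hD, hr'4, g.hD2, fun hd => by
      have := Nat.le_of_dvd (Nat.pos_of_ne_zero h.hN) hd; omega,
    g.hDN, g.hD1, by omega,
    by rw [(ZMod.natCast_eq_natCast_iff _ _ _).mpr hr'D]; exact g.hns⟩
  have hjoin := h.rowVal_join g' gP (by omega)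
  rw [h.rowVal_same_D g g', ← hpos, hneg] at hjoin
  exact h.eq_zero_of_two_nsmul (eq_neg_iff_add_eq_zero.mp hjoin)

/-- **Vanishing on `Γ₁(N)` over `ℤ[1/q]`.** -/
theorem eq_zero {g : SL(2, ℚ)} (hg : g ∈ SGamma N q) (hd : MulOf q N (g 1 1 - 1)) : φ g = 0 := by
  -- make the lower left entry nonzero
  obtain ⟨g, hg, hd, hc0, heq⟩ : ∃ g', g' ∈ SGamma N q ∧ MulOf q N (g' 1 1 - 1) ∧ g' 1 0 ≠ 0 ∧
      φ g = φ g' := by
    by_cases hc : g 1 0 = 0
    · have hlo : loU (N : ℚ) ∈ SGamma N q := loU_mem (by simpa using MulOf.self (q := q) (M := (N : ℤ)))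
      refine ⟨g * loU (N : ℚ), mul_mem hg hlo, ?_, ?_,
        (h.mul_unip_right hg hlo (by simp only [loU00, loU11]; norm_num)).symm⟩
      · rw [mul11, loU01, loU11, mul_zero, zero_add, mul_one]; exact hd
      · have hdet := det_eq g
        rw [hc, mul_zero, sub_zero] at hdet
        rw [mul10, hc, zero_mul, zero_add, loU10]
        exact mul_ne_zero (right_ne_zero_of_mul_eq_one hdet) (Nat.cast_ne_zero.mpr h.hN)
    · exact ⟨g, hg, hd, hc, rfl⟩
  rw [heq]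
  obtain ⟨h00, h01, h11, h10⟩ := mem_SGamma_iff.mp hg
  obtain ⟨C, u, hC, hCq, hu, hu', hcC⟩ := exists_core h.hq h10.mem hc0
  have hu0 : u ≠ 0 := by rintro rfl; rw [mul_zero] at hcC; exact hc0 hcC
  have hinv : MulOf q C (g 1 1 * g 0 0 - 1) :=
    ⟨u * g 0 1, mul_mem hu h01, by push_cast; rw [← mul_assoc, ← hcC]; linear_combination det_eq g⟩
  obtain ⟨D, hDb, hD, hDd⟩ := exists_prime_congr h.hq hC hCq h11 h00 hinv (q + N + C + 2)
  have hNC : (N : ℤ) ∣ (C : ℤ) := by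
    refine MulOf.int_dvd (Nat.Coprime.isCoprime ((h.hq.coprime_iff_not_dvd).mpr h.hqN).symm) ?_
    have := h10.mul_right hu'
    convert this using 1
    rw [hcC]; push_cast; field_simp
  have hD1 : (N : ℤ) ∣ (D : ℤ) - 1 := by
    refine MulOf.int_dvd (Nat.Coprime.isCoprime ((h.hq.coprime_iff_not_dvd).mpr h.hqN).symm) ?_
    convert (hDd.of_dvd hNC).add hd using 1
    push_cast; ring
  -- move `d` to `D`
  obtain ⟨r, hr, hr'⟩ := hDd
  push_cast at hr'
  have hy : r * u⁻¹ ∈ qInts q := mul_mem hr hu'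
  rw [← h.mul_unip_right hg (upU_mem hy) (by simp only [upU00, upU11]; norm_num)]
  set g₁ := g * upU (r * u⁻¹) with hg₁
  have hg₁m : g₁ ∈ SGamma N q := mul_mem hg (upU_mem hy)
  have hd₁ : g₁ 1 1 = (D : ℚ) := by
    rw [hg₁, mul11, hcC, upU01, upU11]; field_simp; linear_combination -hr'
  have hc₁ : g₁ 1 0 = g 1 0 := by rw [hg₁, mul10]; simp
  obtain ⟨n₀, hn₀⟩ := hNC
  -- integral representative of the lower left entry
  obtain ⟨m, hm, hmc⟩ : ∃ m : ℤ, MulOf q (D : ℤ) ((m : ℚ) - (n₀ : ℚ) * u) ∧ ¬ (D : ℤ) ∣ m := by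
    have hDq' : D.Coprime q := (Nat.coprime_primes hD h.hq).mpr (by omega)
    obtain ⟨uz, huz, huzc⟩ := exists_int_congr h.hq hDq' hu hu'
      (by rw [mul_inv_cancel₀ hu0, sub_self]; exact MulOf.zero)
    refine ⟨n₀ * uz, ?_, ?_⟩
    · convert huz.mul_left (int_mem_qInts q n₀) using 1; push_cast; ring
    · intro hd2
      rcases (Nat.prime_iff_prime_int.mp hD).dvd_or_dvd hd2 with h2 | h2
      · have h3 : (D : ℤ) ∣ (C : ℤ) := hn₀ ▸ h2.mul_left _
        have := Nat.le_of_dvd hC (Int.natCast_dvd_natCast.mp h3)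
        omega
      · exact (Nat.prime_iff_prime_int.mp hD).not_isUnit
          (huzc.isUnit_of_dvd' h2 dvd_rfl)
  obtain ⟨t, ht, ht'⟩ := hm
  push_cast at ht'
  have hlo : MulOf q N ((N : ℚ) * t) := ⟨t, ht, by simp⟩
  rw [← h.mul_unip_right hg₁m (loU_mem hlo) (by simp only [loU00, loU11]; norm_num)]
  have hDN : ¬ D ∣ N := fun hd2 => by
    have := Nat.le_of_dvd (Nat.pos_of_ne_zero h.hN) hd2; omega
  rw [h.rowVal_eq (mul_mem hg₁m (loU_mem hlo)) (D := (D : ℤ)) (n := m)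
    (by
      rw [mul10, hd₁, hc₁, hcC, loU00, loU10]
      have : (C : ℚ) = (N : ℚ) * n₀ := by exact_mod_cast hn₀
      rw [this]; linear_combination (-(N : ℚ)) * ht')
    (by rw [mul11, hd₁, loU01, loU11]; push_cast; ring)]
  have := Fact.mk hD
  have hm0 : (m : ZMod D) ≠ 0 := by rwa [Ne, ZMod.intCast_zmod_eq_zero_iff_dvd]
  by_cases hsq : IsSquare (m : ZMod D)
  · obtain ⟨z, hz⟩ := hsq
    have hz0 : z ≠ 0 := by rintro rfl; rw [mul_zero] at hz; exact hm0 hz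
    have hzv : ¬ (D : ℤ) ∣ (z.val : ℤ) := by
      rw [← ZMod.intCast_zmod_eq_zero_iff_dvd]; simp [hz0]
    have h1 : ¬ (D : ℤ) ∣ (1 : ℤ) := fun hd2 => hD.ne_one (Nat.dvd_one.mp (by exact_mod_cast hd2))
    have hcop := isCoprime_row hD hDN (n := (1 : ℤ) * (z.val : ℤ) ^ 2)
      (by rw [← ZMod.intCast_zmod_eq_zero_iff_dvd]; simp [hz0])
    rw [h.rowVal_congr hcop (n' := m) (by
        rw [← ZMod.intCast_eq_intCast_iff_dvd_sub]; simp [hz, sq]),
      h.rowVal_mul_sq hD hDN h1 hzv,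
      h.rowVal_congr_D (D := 1) isCoprime_one_left (by simpa using hD1)]
    have hlo1 : loU (N : ℚ) ∈ SGamma N q :=
      loU_mem (by simpa using MulOf.self (q := q) (M := (N : ℤ)))
    rw [← h.rowVal_eq hlo1 (D := 1) (n := 1) (by simp) (by simp)]
    exact h.unip hlo1 (by simp only [loU00, loU11]; norm_num)
  · obtain ⟨r', hr'b, hr'p, hr'4, hr'D⟩ := exists_prime_two (a := 1) (b := (m : ZMod D).val)
      (m := 4) (n := D) (by norm_num) hD.ne_zero
      (((Nat.coprime_primes Nat.prime_two hD).mpr (by omega)).pow_left 2)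
      (Nat.coprime_one_left _)
      ((hD.coprime_iff_not_dvd.mpr fun hd2 => hm0 (by
        rw [← ZMod.natCast_zmod_val (m : ZMod D)]
        exact (ZMod.natCast_eq_zero_iff _ _).mpr hd2)).symm) (N + D)
    have hr'm : (r' : ZMod D) = (m : ZMod D) := by
      rw [(ZMod.natCast_eq_natCast_iff _ _ _).mpr hr'D, ZMod.natCast_zmod_val]
    have gp : GoodPair N q r' D := ⟨hr'p, hD, hr'4, by omega, fun hd2 => by
        have := Nat.le_of_dvd (Nat.pos_of_ne_zero h.hN) hd2; omega,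
      hDN, hD1, by omega, by rw [hr'm]; exact hsq⟩
    rw [h.rowVal_congr (isCoprime_row hD hDN (not_dvd_prime hD hr'p (by omega))) (n' := m) (by
      rw [← ZMod.intCast_eq_intCast_iff_dvd_sub]; simp [hr'm])]
    exact h.rowVal_good gp

end IsQHom

end Fermat.Agent.Ihara
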