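import Fermat.Agent.Ihara.Amalgam
import Fermat.Agent.Ihara.Vanish

/-!
# Ihara's lemma for `Γ₀(N) → Γ₀(Nq)`

If `x, y` are homomorphisms `Γ₀(N) → A` (`A` of odd prime exponent `p ≠ q`), `x` kills the
unipotents of `Γ₀(N)`, and `α^* x + β^* y = 0` on `Γ₀(Nq)`, then `x` and `y` factor through
`γ ↦ d mod N`, i.e. they lie in the Shimura (Eisenstein) part.
-/

set_option autoImplicit false

open CongruenceSubgroup
open scoped MatrixGroups

namespace Fermat.Agent.Ihara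

variable {A : Type*} [AddCommGroup A]

/-- `δ` is the conjugate `diag(q,1) γ diag(q,1)⁻¹`; this forces `γ ∈ Γ₀(Nq)` when `δ ∈ Γ₀(N)`. -/
def IsDegeneracyPair (q : ℕ) (γ δ : SL(2, ℤ)) : Prop :=
  δ 0 0 = γ 0 0 ∧ δ 0 1 = (q : ℤ) * γ 0 1 ∧ (q : ℤ) * δ 1 0 = γ 1 0 ∧ δ 1 1 = γ 1 1

/-- **Ihara's lemma**, including the case `q = p`: both components of an element of the kernel of
the degeneracy map vanish on `Γ₁(N)`. -/
theorem ihara_eq_zero' {N q p : ℕ} [NeZero N] (hq : q.Prime) (hqN : ¬ q ∣ N) (hp : p.Prime)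
    (hp2 : p ≠ 2) (hA : ∀ a : A, p • a = 0)
    (x y : Additive (Gamma0 N) →+ A)
    (hx : ∀ γ : Gamma0 N, ((γ : SL(2, ℤ)) : Matrix (Fin 2) (Fin 2) ℤ).trace = 2 →
      x (Additive.ofMul γ) = 0)
    (hker : ∀ γ δ : Gamma0 N, IsDegeneracyPair q γ δ →
      x (Additive.ofMul γ) + y (Additive.ofMul δ) = 0)
    (γ : Gamma0 N) (hγ : (((γ : SL(2, ℤ)) 1 1 : ℤ) : ZMod N) = 1) :
    x (Additive.ofMul γ) = 0 ∧ y (Additive.ofMul γ) = 0 := by
  have : NeZero q := ⟨hq.ne_zero⟩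
  -- the homomorphism on the amalgam
  let f : Bool → (Gamma0 N →* Multiplicative A) := fun i =>
    match i with
    | true =>
      { toFun := fun g => Multiplicative.ofAdd (x (Additive.ofMul g))
        map_one' := by simp
        map_mul' := fun a b => by simp [ofMul_mul] }
    | false =>
      { toFun := fun g => Multiplicative.ofAdd (-y (Additive.ofMul g))
        map_one' := by simp
        map_mul' := fun a b => by
          simp only [ofMul_mul, map_add, neg_add, ofAdd_add] }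
  let k : Gamma0 (N * q) →* Multiplicative A := (f true).comp (amalgMaps N q true)
  have hf : ∀ i, (f i).comp (amalgMaps N q i) = k := by
    intro i
    cases i
    · refine MonoidHom.ext fun h => ?_
      have hdeg : IsDegeneracyPair q ((amalgMaps N q true h : Gamma0 N) : SL(2, ℤ))
          ((amalgMaps N q false h : Gamma0 N) : SL(2, ℤ)) := by
        refine ⟨rfl, rfl, ?_, rfl⟩
        show (q : ℤ) * ((h : SL(2, ℤ)) 1 0 / (q : ℤ)) = (h : SL(2, ℤ)) 1 0
        exact Int.mul_ediv_cancel'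
          ((Int.natCast_dvd_natCast.mpr (dvd_mul_left q N)).trans (Gamma0_mem_iff_dvd.mp h.2))
      show Multiplicative.ofAdd (-y (Additive.ofMul (amalgMaps N q false h)))
        = Multiplicative.ofAdd (x (Additive.ofMul (amalgMaps N q true h)))
      rw [neg_eq_of_add_eq_zero_left (hker _ _ hdeg)]
    · rfl
  let Λ : Amalg N q →* Multiplicative A := Monoid.PushoutI.lift f k hf
  let φ : SL(2, ℚ) → A := fun G => (Λ (Function.invFun (amalgReal N q) G)).toAdd
  have hφ : ∀ z, φ (amalgReal N q z) = (Λ z).toAdd := fun z => by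
    show (Λ (Function.invFun (amalgReal N q) (amalgReal N q z))).toAdd = _
    rw [Function.leftInverse_invFun (amalgReal_injective hq hqN) z]
  have hφof : ∀ (i : Bool) (g : Gamma0 N), φ (amalgEmb N q i g) = (f i g).toAdd := fun i g => by
    rw [← amalgReal_of, hφ]
    show (Monoid.PushoutI.lift f k hf (Monoid.PushoutI.of i g)).toAdd = _
    rw [Monoid.PushoutI.lift_of]
  have hQ : IsQHom N q p φ :=
    { hN := NeZero.ne N
      hq := hq
      hqN := hqN
      hp := hp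
      hp2 := hp2
      torsion := hA
      map_mul := fun g g' hg hg' => by
        obtain ⟨a, rfl⟩ := exists_amalgReal_eq hq hqN hg
        obtain ⟨b, rfl⟩ := exists_amalgReal_eq hq hqN hg'
        rw [← map_mul, hφ, hφ, hφ, map_mul, toAdd_mul]
      map_unip := fun δ hδ htr => by
        show φ (amalgEmb N q true ⟨δ, hδ⟩) = 0
        rw [hφof]
        exact hx ⟨δ, hδ⟩ (by rw [Matrix.trace_fin_two]; exact htr) }
  have hd : (N : ℤ) ∣ (γ : SL(2, ℤ)) 1 1 - 1 := by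
    rw [← ZMod.intCast_zmod_eq_zero_iff_dvd]; push_cast; rw [hγ, sub_self]
  have hd' : MulOf q N ((((γ : SL(2, ℤ)) 1 1 : ℤ) : ℚ) - 1) := by
    simpa using MulOf.of_int (q := q) hd
  have mem : ∀ i, amalgEmb N q i γ ∈ SGamma N q := by
    intro i
    rw [mem_SGamma_iff]
    have hc := MulOf.of_int (q := q) (Gamma0_mem_iff_dvd.mp γ.2)
    cases i
    · exact ⟨int_mem_qInts q _, ⟨1, (γ : SL(2, ℤ)) 0 1, by
        show (((γ : SL(2, ℤ)) 0 1 : ℤ) : ℚ) / (q : ℚ) * (q : ℚ) ^ 1 = _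
        have : (q : ℚ) ≠ 0 := Nat.cast_ne_zero.mpr hq.ne_zero
        field_simp⟩, int_mem_qInts q _, hc.mul_left (nat_mem_qInts q q)⟩
    · exact ⟨int_mem_qInts q _, int_mem_qInts q _, int_mem_qInts q _, hc⟩
  have h1 := hQ.eq_zero (mem true) hd'
  have h2 := hQ.eq_zero (mem false) hd'
  rw [hφof] at h1 h2
  exact ⟨h1, neg_eq_zero.mp h2⟩

/-- **Ihara's lemma**: both components of an element of the kernel of the degeneracy map
vanish on `Γ₁(N)`. -/
theorem ihara_eq_zero {N q p : ℕ} [NeZero N] (hq : q.Prime) (hqN : ¬ q ∣ N) (hp : p.Prime)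
    (hp2 : p ≠ 2) (_hpq : q ≠ p) (hA : ∀ a : A, p • a = 0)
    (x y : Additive (Gamma0 N) →+ A)
    (hx : ∀ γ : Gamma0 N, ((γ : SL(2, ℤ)) : Matrix (Fin 2) (Fin 2) ℤ).trace = 2 →
      x (Additive.ofMul γ) = 0)
    (hker : ∀ γ δ : Gamma0 N, IsDegeneracyPair q γ δ →
      x (Additive.ofMul γ) + y (Additive.ofMul δ) = 0)
    (γ : Gamma0 N) (hγ : (((γ : SL(2, ℤ)) 1 1 : ℤ) : ZMod N) = 1) :
    x (Additive.ofMul γ) = 0 ∧ y (Additive.ofMul γ) = 0 :=
  ihara_eq_zero' hq hqN hp hp2 hA x y hx hker γ hγ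

/-- **Ihara's lemma**, character form, including the case `q = p`: both components depend only on
`d mod N`. -/
theorem ihara_eq_of_d_eq' {N q p : ℕ} [NeZero N] (hq : q.Prime) (hqN : ¬ q ∣ N) (hp : p.Prime)
    (hp2 : p ≠ 2) (hA : ∀ a : A, p • a = 0)
    (x y : Additive (Gamma0 N) →+ A)
    (hx : ∀ γ : Gamma0 N, ((γ : SL(2, ℤ)) : Matrix (Fin 2) (Fin 2) ℤ).trace = 2 →
      x (Additive.ofMul γ) = 0)
    (hker : ∀ γ δ : Gamma0 N, IsDegeneracyPair q γ δ →
      x (Additive.ofMul γ) + y (Additive.ofMul δ) = 0)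
    (γ γ' : Gamma0 N)
    (hd : (((γ : SL(2, ℤ)) 1 1 : ℤ) : ZMod N) = (((γ' : SL(2, ℤ)) 1 1 : ℤ) : ZMod N)) :
    x (Additive.ofMul γ) = x (Additive.ofMul γ') ∧ y (Additive.ofMul γ) = y (Additive.ofMul γ') := by
  have key := ihara_eq_zero' hq hqN hp hp2 hA x y hx hker (γ⁻¹ * γ') ?_
  · simp only [ofMul_mul, ofMul_inv, map_add, map_neg, neg_add_eq_zero] at key
    exact key
  · have hγ := Gamma0_mem.mp γ.2
    have hdet : (((γ : SL(2, ℤ)) 0 0 : ℤ) : ZMod N) * (((γ : SL(2, ℤ)) 1 1 : ℤ) : ZMod N) = 1 := by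
      have h := (γ : SL(2, ℤ)).prop
      rw [Matrix.det_fin_two] at h
      have := congrArg (fun z : ℤ => (z : ZMod N)) h
      push_cast at this
      rw [hγ, mul_zero, sub_zero] at this
      exact this
    have e : ((γ⁻¹ * γ' : Gamma0 N) : SL(2, ℤ)) 1 1
        = -((γ : SL(2, ℤ)) 1 0) * (γ' : SL(2, ℤ)) 0 1 + (γ : SL(2, ℤ)) 0 0 * (γ' : SL(2, ℤ)) 1 1 := by
      simp [Matrix.SpecialLinearGroup.coe_inv, Matrix.adjugate_fin_two, Matrix.mul_apply,
        Fin.sum_univ_two]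
    rw [e]
    push_cast
    rw [hγ, ← hd, neg_zero, zero_mul, zero_add, hdet]

/-- **Ihara's lemma**, character form: both components depend only on `d mod N`. -/
theorem ihara_eq_of_d_eq {N q p : ℕ} [NeZero N] (hq : q.Prime) (hqN : ¬ q ∣ N) (hp : p.Prime)
    (hp2 : p ≠ 2) (_hpq : q ≠ p) (hA : ∀ a : A, p • a = 0)
    (x y : Additive (Gamma0 N) →+ A)
    (hx : ∀ γ : Gamma0 N, ((γ : SL(2, ℤ)) : Matrix (Fin 2) (Fin 2) ℤ).trace = 2 →
      x (Additive.ofMul γ) = 0)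
    (hker : ∀ γ δ : Gamma0 N, IsDegeneracyPair q γ δ →
      x (Additive.ofMul γ) + y (Additive.ofMul δ) = 0)
    (γ γ' : Gamma0 N)
    (hd : (((γ : SL(2, ℤ)) 1 1 : ℤ) : ZMod N) = (((γ' : SL(2, ℤ)) 1 1 : ℤ) : ZMod N)) :
    x (Additive.ofMul γ) = x (Additive.ofMul γ') ∧ y (Additive.ofMul γ) = y (Additive.ofMul γ') :=
  ihara_eq_of_d_eq' hq hqN hp hp2 hA x y hx hker γ γ' hd

end Fermat.Agent.Ihara
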