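import Fermat.Agent.Ihara.Basic
import Mathlib.GroupTheory.PushoutI
import Mathlib.FieldTheory.Finite.Basic

/-!
# Ihara's lemma: `Γ₀(N)_{ℤ[1/q]}` is the amalgam of two copies of `Γ₀(N)` over `Γ₀(Nq)`

The factors are indexed by `Bool`: `true` is `Γ₀(N)` itself, `false` is its conjugate by
`diag(q,1)⁻¹`.
-/

set_option autoImplicit false

open CongruenceSubgroup
open scoped MatrixGroups

namespace Fermat.Agent.Ihara

/-- A `2 × 2` matrix of determinant one. -/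
def mkSL {R : Type*} [CommRing R] (a b c d : R) (h : a * d - b * c = 1) : SL(2, R) :=
  ⟨!![a, b; c, d], by rw [Matrix.det_fin_two_of]; exact h⟩

section mkSL

variable {R : Type*} [CommRing R] (a b c d : R) (h : a * d - b * c = 1)

@[simp] theorem mkSL00 : mkSL a b c d h 0 0 = a := rfl
@[simp] theorem mkSL01 : mkSL a b c d h 0 1 = b := rfl
@[simp] theorem mkSL10 : mkSL a b c d h 1 0 = c := rfl
@[simp] theorem mkSL11 : mkSL a b c d h 1 1 = d := rfl

end mkSL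

/-- `g ↦ diag(q,1)⁻¹ g diag(q,1)`. -/
def conjQ (q : ℕ) [NeZero q] : SL(2, ℚ) →* SL(2, ℚ) where
  toFun g := mkSL (g 0 0) (g 0 1 / (q : ℚ)) ((q : ℚ) * g 1 0) (g 1 1) (by
    have hq : (q : ℚ) ≠ 0 := Nat.cast_ne_zero.mpr (NeZero.ne q)
    field_simp; linear_combination det_eq g)
  map_one' := by refine sl_ext ?_ ?_ ?_ ?_ <;> simp
  map_mul' g h := by
    have hq : (q : ℚ) ≠ 0 := Nat.cast_ne_zero.mpr (NeZero.ne q)
    refine sl_ext ?_ ?_ ?_ ?_ <;>
      simp only [mul00, mul01, mul10, mul11, mkSL00, mkSL01, mkSL10, mkSL11] <;>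
      field_simp

section conjQ

variable (q : ℕ) [NeZero q] (g : SL(2, ℚ))

@[simp] theorem conjQ00 : conjQ q g 0 0 = g 0 0 := rfl
@[simp] theorem conjQ01 : conjQ q g 0 1 = g 0 1 / (q : ℚ) := rfl
@[simp] theorem conjQ10 : conjQ q g 1 0 = (q : ℚ) * g 1 0 := rfl
@[simp] theorem conjQ11 : conjQ q g 1 1 = g 1 1 := rfl

end conjQ

theorem castSL_injective : Function.Injective castSL := by
  intro a b hab
  have h : ∀ i j, a i j = b i j := fun i j => by
    have := congrArg (fun g : SL(2, ℚ) => g i j) hab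
    simp only [castSL_apply] at this
    exact_mod_cast this
  exact sl_ext (h 0 0) (h 0 1) (h 1 0) (h 1 1)

theorem Gamma0_mem_iff_dvd {M : ℕ} {γ : SL(2, ℤ)} : γ ∈ Gamma0 M ↔ (M : ℤ) ∣ γ 1 0 := by
  rw [Gamma0_mem, ZMod.intCast_zmod_eq_zero_iff_dvd]

variable (N q : ℕ)

/-- `Γ₀(Nq) → Γ₀(N)`, `h ↦ diag(q,1) h diag(q,1)⁻¹`. -/
def degHom [NeZero q] : Gamma0 (N * q) →* Gamma0 N where
  toFun h := ⟨mkSL ((h : SL(2, ℤ)) 0 0) ((q : ℤ) * (h : SL(2, ℤ)) 0 1)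
      ((h : SL(2, ℤ)) 1 0 / (q : ℤ)) ((h : SL(2, ℤ)) 1 1) (by
        have hd := det_eq (h : SL(2, ℤ))
        have hdvd : (q : ℤ) ∣ (h : SL(2, ℤ)) 1 0 :=
          (Int.natCast_dvd_natCast.mpr (dvd_mul_left q N)).trans (Gamma0_mem_iff_dvd.mp h.2)
        obtain ⟨c, hc⟩ := hdvd
        rw [hc, Int.mul_ediv_cancel_left _ (Int.natCast_ne_zero.mpr (NeZero.ne q))]
        rw [hc] at hd
        linear_combination hd), Gamma0_mem_iff_dvd.mpr (by
      rw [mkSL10]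
      obtain ⟨c, hc⟩ := Gamma0_mem_iff_dvd.mp h.2
      rw [hc]; push_cast
      rw [show (N : ℤ) * q * c = q * (N * c) by ring,
        Int.mul_ediv_cancel_left _ (Int.natCast_ne_zero.mpr (NeZero.ne q))]
      exact dvd_mul_right _ _)⟩
  map_one' := by
    apply Subtype.ext
    refine sl_ext ?_ ?_ ?_ ?_ <;> simp
  map_mul' g h := by
    apply Subtype.ext
    have hq : (q : ℤ) ≠ 0 := Int.natCast_ne_zero.mpr (NeZero.ne q)
    obtain ⟨c, hc⟩ : (q : ℤ) ∣ (g : SL(2, ℤ)) 1 0 :=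
      (Int.natCast_dvd_natCast.mpr (dvd_mul_left q N)).trans (Gamma0_mem_iff_dvd.mp g.2)
    obtain ⟨c', hc'⟩ : (q : ℤ) ∣ (h : SL(2, ℤ)) 1 0 :=
      (Int.natCast_dvd_natCast.mpr (dvd_mul_left q N)).trans (Gamma0_mem_iff_dvd.mp h.2)
    refine sl_ext ?_ ?_ ?_ ?_ <;>
      simp only [Subgroup.coe_mul, mul00, mul01, mul10, mul11, mkSL00, mkSL01, mkSL10, mkSL11, hc,
        hc', Int.mul_ediv_cancel_left _ hq]
    · ring
    · ring
    · rw [show (q : ℤ) * c * (h : SL(2, ℤ)) 0 0 + (g : SL(2, ℤ)) 1 1 * ((q : ℤ) * c')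
          = q * (c * (h : SL(2, ℤ)) 0 0 + (g : SL(2, ℤ)) 1 1 * c') by ring,
        Int.mul_ediv_cancel_left _ hq]
    · ring

/-- Both degeneracy inclusions of `Γ₀(Nq)` into `Γ₀(N)`. -/
def amalgMaps [NeZero q] : Bool → (Gamma0 (N * q) →* Gamma0 N)
  | true => Subgroup.inclusion fun _γ hγ => Gamma0_mem_iff_dvd.mpr
      ((Int.natCast_dvd_natCast.mpr (dvd_mul_right N q)).trans (Gamma0_mem_iff_dvd.mp hγ))
  | false => degHom N q

/-- The amalgam. -/
abbrev Amalg [NeZero q] := Monoid.PushoutI (amalgMaps N q)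

/-- The embeddings of the two factors into `SL(2, ℚ)`. -/
def amalgEmb [NeZero q] : Bool → (Gamma0 N →* SL(2, ℚ))
  | true => castSL.comp (Gamma0 N).subtype
  | false => (conjQ q).comp (castSL.comp (Gamma0 N).subtype)

theorem amalgEmb_comp [NeZero q] (i : Bool) :
    (amalgEmb N q i).comp (amalgMaps N q i) = castSL.comp (Gamma0 (N * q)).subtype := by
  cases i
  · refine MonoidHom.ext fun h => ?_
    obtain ⟨c, hc⟩ : (q : ℤ) ∣ (h : SL(2, ℤ)) 1 0 :=
      (Int.natCast_dvd_natCast.mpr (dvd_mul_left q N)).trans (Gamma0_mem_iff_dvd.mp h.2)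
    have hq : (q : ℤ) ≠ 0 := Int.natCast_ne_zero.mpr (NeZero.ne q)
    have hq' : (q : ℚ) ≠ 0 := Nat.cast_ne_zero.mpr (NeZero.ne q)
    refine sl_ext rfl ?_ ?_ rfl
    · show (((q : ℤ) * (h : SL(2, ℤ)) 0 1 : ℤ) : ℚ) / (q : ℚ) = ((h : SL(2, ℤ)) 0 1 : ℚ)
      push_cast; field_simp
    · show (q : ℚ) * (((h : SL(2, ℤ)) 1 0 / (q : ℤ) : ℤ) : ℚ) = ((h : SL(2, ℤ)) 1 0 : ℚ)
      rw [hc, Int.mul_ediv_cancel_left _ hq]; push_cast; ring
  · rfl

/-- The realisation of the amalgam in `SL(2, ℚ)`. -/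
def amalgReal [NeZero q] : Amalg N q →* SL(2, ℚ) :=
  Monoid.PushoutI.lift (amalgEmb N q) (castSL.comp (Gamma0 (N * q)).subtype) (amalgEmb_comp N q)

@[simp] theorem amalgReal_of [NeZero q] (i : Bool) (g : Gamma0 N) :
    amalgReal N q (Monoid.PushoutI.of i g) = amalgEmb N q i g :=
  Monoid.PushoutI.lift_of ..

@[simp] theorem amalgReal_base [NeZero q] (h : Gamma0 (N * q)) :
    amalgReal N q (Monoid.PushoutI.base _ h) = castSL (h : SL(2, ℤ)) :=
  Monoid.PushoutI.lift_base ..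

/-- Reduced expressions starting in the factor `i`. -/
inductive RedWord [NeZero q] : Bool → Amalg N q → Prop
  | single (i : Bool) (g : Gamma0 N) (hg : g ∉ (amalgMaps N q i).range) :
      RedWord i (Monoid.PushoutI.of i g)
  | cons (i : Bool) (g : Gamma0 N) (x : Amalg N q) (hg : g ∉ (amalgMaps N q i).range)
      (hx : RedWord (!i) x) : RedWord i (Monoid.PushoutI.of i g * x)

/-- Base elements and reduced words. -/
def HasForm [NeZero q] (x : Amalg N q) : Prop :=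
  x ∈ (Monoid.PushoutI.base (amalgMaps N q)).range ∨ ∃ i, RedWord N q i x

variable {N q} [NeZero q]

theorem RedWord.base_mul {i : Bool} {x : Amalg N q} (hx : RedWord N q i x) (h : Gamma0 (N * q)) :
    RedWord N q i (Monoid.PushoutI.base _ h * x) := by
  have key : ∀ g : Gamma0 N, g ∉ (amalgMaps N q i).range →
      amalgMaps N q i h * g ∉ (amalgMaps N q i).range := fun g hg hh =>
    hg ((Subgroup.mul_mem_cancel_left _ (MonoidHom.mem_range.mpr ⟨h, rfl⟩)).mp hh)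
  cases hx with
  | single _ g hg =>
    rw [← Monoid.PushoutI.of_apply_eq_base (amalgMaps N q) i, ← map_mul]
    exact .single _ _ (key g hg)
  | cons _ g x hg hx =>
    rw [← Monoid.PushoutI.of_apply_eq_base (amalgMaps N q) i, ← mul_assoc, ← map_mul]
    exact .cons _ _ _ (key g hg) hx

theorem HasForm.base_mul {x : Amalg N q} (hx : HasForm N q x) (h : Gamma0 (N * q)) :
    HasForm N q (Monoid.PushoutI.base _ h * x) := by
  rcases hx with ⟨h', rfl⟩ | ⟨i, hx⟩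
  · exact Or.inl ⟨h * h', map_mul _ _ _⟩
  · exact Or.inr ⟨i, hx.base_mul h⟩

theorem HasForm.of_mul {x : Amalg N q} (hx : HasForm N q x) (i : Bool) (g : Gamma0 N) :
    HasForm N q (Monoid.PushoutI.of i g * x) := by
  by_cases hg : g ∈ (amalgMaps N q i).range
  · obtain ⟨h, rfl⟩ := hg
    rw [Monoid.PushoutI.of_apply_eq_base]
    exact hx.base_mul h
  rcases hx with ⟨h, rfl⟩ | ⟨j, hx⟩
  · rw [← Monoid.PushoutI.of_apply_eq_base (amalgMaps N q) i, ← map_mul]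
    exact Or.inr ⟨i, .single _ _ fun hh =>
      hg ((Subgroup.mul_mem_cancel_right _ (MonoidHom.mem_range.mpr ⟨h, rfl⟩)).mp hh)⟩
  by_cases hij : j = i
  · subst hij
    cases hx with
    | single _ g' hg' =>
      rw [← map_mul]
      by_cases hgg : g * g' ∈ (amalgMaps N q j).range
      · obtain ⟨h, hh⟩ := hgg
        rw [← hh, Monoid.PushoutI.of_apply_eq_base]
        exact Or.inl ⟨h, rfl⟩
      · exact Or.inr ⟨j, .single _ _ hgg⟩
    | cons _ g' x hg' hx =>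
      rw [← mul_assoc, ← map_mul]
      by_cases hgg : g * g' ∈ (amalgMaps N q j).range
      · obtain ⟨h, hh⟩ := hgg
        rw [← hh, Monoid.PushoutI.of_apply_eq_base]
        exact Or.inr ⟨_, hx.base_mul h⟩
      · exact Or.inr ⟨j, .cons _ _ _ hgg hx⟩
  · exact Or.inr ⟨i, .cons _ _ _ hg (by
      rw [show (!i) = j by cases i <;> cases j <;> simp_all]; exact hx)⟩

theorem hasForm (x : Amalg N q) : HasForm N q x := by
  have h1 : HasForm N q (1 : Amalg N q) := Or.inl ⟨1, map_one _⟩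
  suffices ∀ y : Amalg N q, HasForm N q y → HasForm N q (x * y) by simpa using this 1 h1
  induction x using Monoid.PushoutI.induction_on with
  | of i g => exact fun y hy => hy.of_mul i g
  | base h => exact fun y hy => hy.base_mul h
  | mul a b ha hb => exact fun y hy => by rw [mul_assoc]; exact ha _ (hb _ hy)

theorem not_range_true {g : Gamma0 N} (hqN : N.Coprime q)
    (hg : g ∉ (amalgMaps N q true).range) : ¬ (q : ℤ) ∣ (g : SL(2, ℤ)) 1 0 := by
  intro hd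
  refine hg ⟨⟨(g : SL(2, ℤ)), Gamma0_mem_iff_dvd.mpr ?_⟩, rfl⟩
  push_cast
  exact (Nat.Coprime.isCoprime hqN).mul_dvd (Gamma0_mem_iff_dvd.mp g.2) hd

theorem not_range_false {g : Gamma0 N}
    (hg : g ∉ (amalgMaps N q false).range) : ¬ (q : ℤ) ∣ (g : SL(2, ℤ)) 0 1 := by
  rintro ⟨b, hb⟩
  have hq : (q : ℤ) ≠ 0 := Int.natCast_ne_zero.mpr (NeZero.ne q)
  let γ : SL(2, ℤ) := ⟨!![(g : SL(2, ℤ)) 0 0, b; (q : ℤ) * (g : SL(2, ℤ)) 1 0, (g : SL(2, ℤ)) 1 1], by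
    rw [Matrix.det_fin_two_of]
    have := det_eq (g : SL(2, ℤ))
    rw [hb] at this
    linear_combination this⟩
  refine hg ⟨⟨γ, Gamma0_mem_iff_dvd.mpr ?_⟩, ?_⟩
  · show ((N * q : ℕ) : ℤ) ∣ (q : ℤ) * (g : SL(2, ℤ)) 1 0
    push_cast; rw [mul_comm (N : ℤ)]
    exact mul_dvd_mul_left _ (Gamma0_mem_iff_dvd.mp g.2)
  · apply Subtype.ext
    refine sl_ext rfl hb.symm ?_ rfl
    show (q : ℤ) * (g : SL(2, ℤ)) 1 0 / (q : ℤ) = (g : SL(2, ℤ)) 1 0
    rw [Int.mul_ediv_cancel_left _ hq]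

/-- The ping-pong invariant: a primitive integral multiple with prescribed rows modulo `q`. -/
def PingPong (q : ℕ) (i : Bool) (G : SL(2, ℚ)) : Prop :=
  ∃ (m : ℕ) (a b c d : ℤ), (q : ℚ) ^ m * G 0 0 = a ∧ (q : ℚ) ^ m * G 0 1 = b ∧
    (q : ℚ) ^ m * G 1 0 = c ∧ (q : ℚ) ^ m * G 1 1 = d ∧
    (if i then ¬ ((q : ℤ) ∣ c ∧ (q : ℤ) ∣ d) ∧ (m = 0 → ¬ (q : ℤ) ∣ c)
     else 1 ≤ m ∧ (q : ℤ) ∣ c ∧ (q : ℤ) ∣ d ∧ ¬ ((q : ℤ) ∣ a ∧ (q : ℤ) ∣ b))

theorem RedWord.pingPong (hq : q.Prime) (hqN : ¬ q ∣ N) {i : Bool} {x : Amalg N q}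
    (hx : RedWord N q i x) : PingPong q i (amalgReal N q x) := by
  have hcop : N.Coprime q := ((hq.coprime_iff_not_dvd).mpr hqN).symm
  have hpr : Prime (q : ℤ) := Nat.prime_iff_prime_int.mp hq
  have hq0 : (q : ℚ) ≠ 0 := Nat.cast_ne_zero.mpr hq.ne_zero
  induction hx with
  | single i g hg =>
    rw [amalgReal_of]
    cases i
    · refine ⟨1, (q : ℤ) * (g : SL(2, ℤ)) 0 0, (g : SL(2, ℤ)) 0 1,
        (q : ℤ) * ((q : ℤ) * (g : SL(2, ℤ)) 1 0), (q : ℤ) * (g : SL(2, ℤ)) 1 1, ?_, ?_, ?_, ?_, ?_⟩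
      · simp [amalgEmb]
      · simp [amalgEmb]; field_simp
      · simp [amalgEmb]
      · simp [amalgEmb]
      · simp only [Bool.false_eq_true, if_false]
        exact ⟨le_rfl, dvd_mul_right _ _, dvd_mul_right _ _, fun hh => not_range_false hg hh.2⟩
    · refine ⟨0, (g : SL(2, ℤ)) 0 0, (g : SL(2, ℤ)) 0 1, (g : SL(2, ℤ)) 1 0, (g : SL(2, ℤ)) 1 1,
        by simp [amalgEmb], by simp [amalgEmb], by simp [amalgEmb], by simp [amalgEmb], ?_⟩
      simp only [if_true]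
      exact ⟨fun hh => not_range_true hcop hg hh.1, fun _ => not_range_true hcop hg⟩
  | cons i g x hg hx ih =>
    rw [map_mul, amalgReal_of]
    obtain ⟨m, a, b, c, d, ea, eb, ec, ed, hcond⟩ := ih
    set G := amalgReal N q x
    cases i
    · simp only [Bool.not_false, if_true] at hcond
      refine ⟨m + 1, (q : ℤ) * ((g : SL(2, ℤ)) 0 0 * a) + (g : SL(2, ℤ)) 0 1 * c,
        (q : ℤ) * ((g : SL(2, ℤ)) 0 0 * b) + (g : SL(2, ℤ)) 0 1 * d,
        (q : ℤ) * ((q : ℤ) * (g : SL(2, ℤ)) 1 0 * a + (g : SL(2, ℤ)) 1 1 * c),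
        (q : ℤ) * ((q : ℤ) * (g : SL(2, ℤ)) 1 0 * b + (g : SL(2, ℤ)) 1 1 * d), ?_, ?_, ?_, ?_, ?_⟩
      · rw [mul00]; simp [amalgEmb, ← ea, ← ec, pow_succ]; field_simp
      · rw [mul01]; simp [amalgEmb, ← eb, ← ed, pow_succ]; field_simp
      · rw [mul10]; simp [amalgEmb, ← ea, ← ec, pow_succ]; ring
      · rw [mul11]; simp [amalgEmb, ← eb, ← ed, pow_succ]; ring
      · simp only [Bool.false_eq_true, if_false]
        refine ⟨by omega, dvd_mul_right _ _, dvd_mul_right _ _, fun ⟨h1, h2⟩ => ?_⟩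
        rw [dvd_add_right (dvd_mul_right _ _)] at h1 h2
        exact hcond.1 ⟨(hpr.dvd_or_dvd h1).resolve_left (not_range_false hg),
          (hpr.dvd_or_dvd h2).resolve_left (not_range_false hg)⟩
    · simp only [Bool.not_true, Bool.false_eq_true, if_false] at hcond
      refine ⟨m, (g : SL(2, ℤ)) 0 0 * a + (g : SL(2, ℤ)) 0 1 * c,
        (g : SL(2, ℤ)) 0 0 * b + (g : SL(2, ℤ)) 0 1 * d,
        (g : SL(2, ℤ)) 1 0 * a + (g : SL(2, ℤ)) 1 1 * c,
        (g : SL(2, ℤ)) 1 0 * b + (g : SL(2, ℤ)) 1 1 * d, ?_, ?_, ?_, ?_, ?_⟩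
      · rw [mul00]; simp [amalgEmb, ← ea, ← ec]; ring
      · rw [mul01]; simp [amalgEmb, ← eb, ← ed]; ring
      · rw [mul10]; simp [amalgEmb, ← ea, ← ec]; ring
      · rw [mul11]; simp [amalgEmb, ← eb, ← ed]; ring
      · simp only [if_true]
        obtain ⟨hm, hc, hd, hab⟩ := hcond
        refine ⟨fun ⟨h1, h2⟩ => ?_, fun h0 => absurd h0 (by omega)⟩
        rw [dvd_add_left (hc.mul_left _)] at h1
        rw [dvd_add_left (hd.mul_left _)] at h2
        exact hab ⟨(hpr.dvd_or_dvd h1).resolve_left (not_range_true hcop hg),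
          (hpr.dvd_or_dvd h2).resolve_left (not_range_true hcop hg)⟩

theorem amalgReal_injective (hq : q.Prime) (hqN : ¬ q ∣ N) :
    Function.Injective (amalgReal N q) := by
  rw [injective_iff_map_eq_one]
  intro x hx
  rcases hasForm x with ⟨h, rfl⟩ | ⟨i, hi⟩
  · rw [amalgReal_base, ← castSL.map_one] at hx
    have : h = 1 := Subtype.ext (castSL_injective hx)
    rw [this, map_one]
  · exfalso
    obtain ⟨m, a, b, c, d, ea, eb, ec, ed, hcond⟩ := hi.pingPong hq hqN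
    rw [hx] at ea eb ec ed
    simp only [Matrix.SpecialLinearGroup.coe_one, Matrix.one_apply_eq, mul_one, ne_eq,
      not_false_eq_true, Matrix.one_apply_ne, Fin.zero_eq_one_iff, Fin.one_eq_zero_iff,
      OfNat.ofNat_ne_one, mul_zero] at ea eb ec ed
    have hc0 : c = 0 := by exact_mod_cast ec.symm
    have hb0 : b = 0 := by exact_mod_cast eb.symm
    have hd : d = (q : ℤ) ^ m := by exact_mod_cast ed.symm
    have ha : a = (q : ℤ) ^ m := by exact_mod_cast ea.symm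
    cases i
    · simp only [Bool.false_eq_true, if_false] at hcond
      exact hcond.2.2.2 ⟨ha ▸ dvd_pow_self _ (by omega), hb0 ▸ dvd_zero _⟩
    · simp only [if_true] at hcond
      by_cases hm : m = 0
      · exact hcond.2 hm (hc0 ▸ dvd_zero _)
      · exact hcond.1 ⟨hc0 ▸ dvd_zero _, hd ▸ dvd_pow_self _ hm⟩

/-- Kernel vectors modulo a prime are first columns of `Γ₀(N)`. -/
theorem exists_col_zero (hq : q.Prime) (hqN : ¬ q ∣ N) {a b c d : ℤ}
    (h : (q : ℤ) ∣ a * d - b * c) :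
    ∃ k ∈ Gamma0 N, (q : ℤ) ∣ a * k 0 0 + b * k 1 0 ∧ (q : ℤ) ∣ c * k 0 0 + d * k 1 0 := by
  have hpr : Prime (q : ℤ) := Nat.prime_iff_prime_int.mp hq
  have hcop : IsCoprime (q : ℤ) (N : ℤ) := Nat.Coprime.isCoprime ((hq.coprime_iff_not_dvd).mpr hqN)
  by_cases hb : (q : ℤ) ∣ b ∧ (q : ℤ) ∣ d
  · obtain ⟨u, v, huv⟩ := hcop
    let k : SL(2, ℤ) := ⟨!![(q : ℤ), -v; (N : ℤ), u], by
      rw [Matrix.det_fin_two_of]; linear_combination huv⟩
    exact ⟨k, Gamma0_mem_iff_dvd.mpr dvd_rfl, dvd_add (dvd_mul_left _ _) (hb.1.mul_right _),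
      dvd_add (dvd_mul_left _ _) (hb.2.mul_right _)⟩
  · have : Fact q.Prime := ⟨hq⟩
    simp only [← ZMod.intCast_zmod_eq_zero_iff_dvd] at h hb ⊢
    push_cast at h ⊢
    have hN : (N : ZMod q) ≠ 0 := by rwa [Ne, ZMod.natCast_eq_zero_iff]
    have key : ∃ t : ZMod q, (a : ZMod q) + b * t = 0 ∧ (c : ZMod q) + d * t = 0 := by
      by_cases hb0 : (b : ZMod q) = 0
      · have hd0 : (d : ZMod q) ≠ 0 := fun hd => hb ⟨hb0, hd⟩
        refine ⟨-c / d, ?_, by field_simp; ring⟩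
        rw [hb0, zero_mul, sub_zero, mul_eq_zero] at h
        rw [hb0, zero_mul, add_zero]; exact h.resolve_right hd0
      · refine ⟨-a / b, by field_simp; ring, ?_⟩
        field_simp; linear_combination -h
    obtain ⟨t, h1, h2⟩ := key
    set z : ℤ := (N : ℤ) * ((t / (N : ZMod q)).val : ℤ)
    let k : SL(2, ℤ) := ⟨!![1, 0; z, 1], by rw [Matrix.det_fin_two_of]; ring⟩
    have ez : ((z : ℤ) : ZMod q) = t := by simp [z]; field_simp
    refine ⟨k, Gamma0_mem_iff_dvd.mpr (show (N : ℤ) ∣ z from dvd_mul_right _ _), ?_, ?_⟩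
    · show (a : ZMod q) * ((1 : ℤ) : ZMod q) + b * (z : ZMod q) = 0
      rw [ez, Int.cast_one, mul_one]; exact h1
    · show (c : ZMod q) * ((1 : ℤ) : ZMod q) + d * (z : ZMod q) = 0
      rw [ez, Int.cast_one, mul_one]; exact h2

/-- Kernel vectors modulo a prime are second columns of `Γ₀(N)`. -/
theorem exists_col_one (hq : q.Prime) (hqN : ¬ q ∣ N) {a b c d : ℤ}
    (h : (q : ℤ) ∣ a * d - b * c) :
    ∃ k ∈ Gamma0 N, (q : ℤ) ∣ a * k 0 1 + b * k 1 1 ∧ (q : ℤ) ∣ c * k 0 1 + d * k 1 1 := by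
  have hpr : Prime (q : ℤ) := Nat.prime_iff_prime_int.mp hq
  have hcop : IsCoprime (q : ℤ) (N : ℤ) := Nat.Coprime.isCoprime ((hq.coprime_iff_not_dvd).mpr hqN)
  by_cases ha : (q : ℤ) ∣ a ∧ (q : ℤ) ∣ c
  · obtain ⟨u, v, huv⟩ := hcop
    let k : SL(2, ℤ) := ⟨!![u, -v; (N : ℤ), (q : ℤ)], by
      rw [Matrix.det_fin_two_of]; linear_combination huv⟩
    exact ⟨k, Gamma0_mem_iff_dvd.mpr dvd_rfl, dvd_add (ha.1.mul_right _) (dvd_mul_left _ _),
      dvd_add (ha.2.mul_right _) (dvd_mul_left _ _)⟩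
  · have : Fact q.Prime := ⟨hq⟩
    simp only [← ZMod.intCast_zmod_eq_zero_iff_dvd] at h ha ⊢
    push_cast at h ⊢
    have key : ∃ t : ZMod q, (a : ZMod q) * t + b = 0 ∧ (c : ZMod q) * t + d = 0 := by
      by_cases ha0 : (a : ZMod q) = 0
      · have hc0 : (c : ZMod q) ≠ 0 := fun hc => ha ⟨ha0, hc⟩
        refine ⟨-d / c, ?_, by field_simp; ring⟩
        rw [ha0, zero_mul, zero_sub, neg_eq_zero, mul_eq_zero] at h
        rw [ha0, zero_mul, zero_add]; exact h.resolve_right hc0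
      · refine ⟨-b / a, by field_simp; ring, ?_⟩
        field_simp; linear_combination h
    obtain ⟨t, h1, h2⟩ := key
    set z : ℤ := (t.val : ℤ)
    let k : SL(2, ℤ) := ⟨!![1, z; 0, 1], by rw [Matrix.det_fin_two_of]; ring⟩
    have ez : ((z : ℤ) : ZMod q) = t := by simp [z]
    refine ⟨k, Gamma0_mem_iff_dvd.mpr (dvd_zero _), ?_, ?_⟩
    · show (a : ZMod q) * (z : ZMod q) + b * ((1 : ℤ) : ZMod q) = 0
      rw [ez, Int.cast_one, mul_one]; exact h1
    · show (c : ZMod q) * (z : ZMod q) + d * ((1 : ℤ) : ZMod q) = 0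
      rw [ez, Int.cast_one, mul_one]; exact h2

theorem exists_amalgReal_eq (hq : q.Prime) (hqN : ¬ q ∣ N) {G : SL(2, ℚ)}
    (hG : G ∈ SGamma N q) : ∃ x, amalgReal N q x = G := by
  have hcop : IsCoprime (N : ℤ) (q : ℤ) :=
    Nat.Coprime.isCoprime ((hq.coprime_iff_not_dvd).mpr hqN).symm
  have hpr : Prime (q : ℤ) := Nat.prime_iff_prime_int.mp hq
  have hq0 : (q : ℚ) ≠ 0 := Nat.cast_ne_zero.mpr hq.ne_zero
  suffices ∀ (n : ℕ) (G : SL(2, ℚ)), G ∈ SGamma N q →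
      (∃ a b c d : ℤ, (q : ℚ) ^ n * G 0 0 = a ∧ (q : ℚ) ^ n * G 0 1 = b ∧
        (q : ℚ) ^ n * G 1 0 = c ∧ (q : ℚ) ^ n * G 1 1 = d) → ∃ x, amalgReal N q x = G by
    obtain ⟨⟨n1, m1, e1⟩, ⟨n2, m2, e2⟩, ⟨n4, m4, e4⟩, h10⟩ := mem_SGamma_iff.mp hG
    obtain ⟨n3, m3, e3⟩ := h10.mem
    refine this (n1 + n2 + n3 + n4) G hG ⟨m1 * (q : ℤ) ^ (n2 + n3 + n4),
      m2 * (q : ℤ) ^ (n1 + n3 + n4), m3 * (q : ℤ) ^ (n1 + n2 + n4),
      m4 * (q : ℤ) ^ (n1 + n2 + n3), ?_, ?_, ?_, ?_⟩ <;>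
      push_cast [← e1, ← e2, ← e3, ← e4] <;> ring
  intro n
  induction n with
  | zero =>
    rintro G hG ⟨a, b, c, d, ea, eb, ec, ed⟩
    simp only [pow_zero, one_mul] at ea eb ec ed
    have hdet := det_eq G
    rw [ea, eb, ec, ed] at hdet
    let γ : SL(2, ℤ) := ⟨!![a, b; c, d], by rw [Matrix.det_fin_two_of]; exact_mod_cast hdet⟩
    have hγ : γ ∈ Gamma0 N := Gamma0_mem_iff_dvd.mpr
      (MulOf.int_dvd hcop (ec ▸ (mem_SGamma_iff.mp hG).2.2.2))
    refine ⟨Monoid.PushoutI.of true ⟨γ, hγ⟩, ?_⟩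
    rw [amalgReal_of]
    exact sl_ext ea.symm eb.symm ec.symm ed.symm
  | succ n ih =>
    rintro G hG ⟨a, b, c, d, ea, eb, ec, ed⟩
    have hdetZ : a * d - b * c = ((q : ℤ) ^ (n + 1)) ^ 2 := by
      have : ((a * d - b * c : ℤ) : ℚ) = ((((q : ℤ) ^ (n + 1)) ^ 2 : ℤ) : ℚ) := by
        push_cast; rw [← ea, ← eb, ← ec, ← ed]
        linear_combination ((q : ℚ) ^ (n + 1)) ^ 2 * det_eq G
      exact_mod_cast this
    obtain ⟨k, hk, hk0, hk1⟩ := exists_col_zero hq hqN (a := a) (b := b) (c := c) (d := d)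
      (hdetZ ▸ dvd_pow (dvd_pow_self _ (by omega)) two_ne_zero)
    obtain ⟨a', ha'⟩ := hk0
    obtain ⟨c', hc'⟩ := hk1
    have hkdet := det_eq k
    have hdet' : a' * (c * k 0 1 + d * k 1 1) - (a * k 0 1 + b * k 1 1) * c'
        = (q : ℤ) ^ (2 * n + 1) := by
      refine mul_left_cancel₀ (Int.natCast_ne_zero.mpr hq.ne_zero) ?_
      have : (q : ℤ) * (q : ℤ) ^ (2 * n + 1) = ((q : ℤ) ^ (n + 1)) ^ 2 := by ring
      rw [this, ← hdetZ]
      linear_combination (-(c * k 0 1 + d * k 1 1)) * ha' + (a * k 0 1 + b * k 1 1) * hc' +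
        (a * d - b * c) * hkdet
    obtain ⟨l, hl, hl0, hl1⟩ := exists_col_one hq hqN (a := a') (b := a * k 0 1 + b * k 1 1)
      (c := c') (d := c * k 0 1 + d * k 1 1) (hdet' ▸ dvd_pow_self _ (by omega))
    obtain ⟨b', hb'⟩ := hl0
    obtain ⟨d', hd'⟩ := hl1
    set K : SL(2, ℚ) := amalgEmb N q true ⟨k, hk⟩ with hK
    set L : SL(2, ℚ) := amalgEmb N q false ⟨l, hl⟩ with hL
    have hKm : K ∈ SGamma N q := by
      rw [mem_SGamma_iff]
      exact ⟨int_mem_qInts q _, int_mem_qInts q _, int_mem_qInts q _,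
        MulOf.of_int (Gamma0_mem_iff_dvd.mp hk)⟩
    have hLm : L ∈ SGamma N q := by
      rw [mem_SGamma_iff]
      refine ⟨int_mem_qInts q _, ?_, int_mem_qInts q _,
        MulOf.mul_left (nat_mem_qInts q q) (MulOf.of_int (Gamma0_mem_iff_dvd.mp hl))⟩
      show ((l 0 1 : ℤ) : ℚ) / (q : ℚ) ∈ qInts q
      exact ⟨1, l 0 1, by field_simp⟩
    have ha'Q : (a : ℚ) * k 0 0 + b * k 1 0 = q * a' := by exact_mod_cast ha'
    have hc'Q : (c : ℚ) * k 0 0 + d * k 1 0 = q * c' := by exact_mod_cast hc'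
    have hb'Q : (a' : ℚ) * l 0 1 + (a * k 0 1 + b * k 1 1) * l 1 1 = q * b' := by exact_mod_cast hb'
    have hd'Q : (c' : ℚ) * l 0 1 + (c * k 0 1 + d * k 1 1) * l 1 1 = q * d' := by exact_mod_cast hd'
    obtain ⟨x, hx⟩ := ih (G * K * L) (mul_mem (mul_mem hG hKm) hLm)
      ⟨a' * l 0 0 + (a * k 0 1 + b * k 1 1) * l 1 0, b',
        c' * l 0 0 + (c * k 0 1 + d * k 1 1) * l 1 0, d', by
          simp only [mul00, mul01, hK, hL, amalgEmb, MonoidHom.comp_apply, conjQ00, conjQ10,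
            castSL_apply, Subgroup.coe_subtype]
          push_cast
          refine mul_left_cancel₀ hq0 ?_
          linear_combination (l 0 0 : ℚ) * (ha'Q + (k 0 0 : ℚ) * ea + (k 1 0 : ℚ) * eb)
            + (q : ℚ) * (l 1 0 : ℚ) * ((k 0 1 : ℚ) * ea + (k 1 1 : ℚ) * eb), by
          simp only [mul00, mul01, hK, hL, amalgEmb, MonoidHom.comp_apply, conjQ01, conjQ11,
            castSL_apply, Subgroup.coe_subtype]
          refine mul_left_cancel₀ hq0 ?_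
          field_simp
          refine mul_left_cancel₀ hq0 ?_
          linear_combination (q : ℚ) * hb'Q + (l 0 1 : ℚ) * (ha'Q + (k 0 0 : ℚ) * ea + (k 1 0 : ℚ) * eb)
            + (q : ℚ) * (l 1 1 : ℚ) * ((k 0 1 : ℚ) * ea + (k 1 1 : ℚ) * eb), by
          simp only [mul10, mul11, hK, hL, amalgEmb, MonoidHom.comp_apply, conjQ00, conjQ10,
            castSL_apply, Subgroup.coe_subtype]
          push_cast
          refine mul_left_cancel₀ hq0 ?_
          linear_combination (l 0 0 : ℚ) * (hc'Q + (k 0 0 : ℚ) * ec + (k 1 0 : ℚ) * ed)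
            + (q : ℚ) * (l 1 0 : ℚ) * ((k 0 1 : ℚ) * ec + (k 1 1 : ℚ) * ed), by
          simp only [mul10, mul11, hK, hL, amalgEmb, MonoidHom.comp_apply, conjQ01, conjQ11,
            castSL_apply, Subgroup.coe_subtype]
          refine mul_left_cancel₀ hq0 ?_
          field_simp
          refine mul_left_cancel₀ hq0 ?_
          linear_combination (q : ℚ) * hd'Q + (l 0 1 : ℚ) * (hc'Q + (k 0 0 : ℚ) * ec + (k 1 0 : ℚ) * ed)
            + (q : ℚ) * (l 1 1 : ℚ) * ((k 0 1 : ℚ) * ec + (k 1 1 : ℚ) * ed)⟩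
    refine ⟨x * (Monoid.PushoutI.of false ⟨l, hl⟩)⁻¹ * (Monoid.PushoutI.of true ⟨k, hk⟩)⁻¹, ?_⟩
    rw [map_mul, map_mul, map_inv, map_inv, amalgReal_of, amalgReal_of, hx, ← hK, ← hL]
    group

end Fermat.Agent.Ihara
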