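import Fermat.Agent.Ihara.Defs

/-!
# Ihara's lemma: first properties of homomorphisms killing unipotents
-/

set_option autoImplicit false

open CongruenceSubgroup
open scoped MatrixGroups

namespace Fermat.Agent.Ihara

variable {A : Type*} [AddCommGroup A] {N q p : ℕ} {φ : SL(2, ℚ) → A}

namespace IsQHom

theorem q_ne (h : IsQHom N q p φ) : (q : ℚ) ≠ 0 := Nat.cast_ne_zero.mpr h.hq.ne_zero

theorem map_one (h : IsQHom N q p φ) : φ 1 = 0 := by
  simpa using h.map_mul 1 1 (one_mem _) (one_mem _)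

theorem map_inv (h : IsQHom N q p φ) {g : SL(2, ℚ)} (hg : g ∈ SGamma N q) : φ g⁻¹ = -φ g := by
  refine eq_neg_of_add_eq_zero_left ?_
  rw [← h.map_mul _ _ (inv_mem hg) hg, inv_mul_cancel, h.map_one]

theorem map_conj (h : IsQHom N q p φ) {g k : SL(2, ℚ)} (hg : g ∈ SGamma N q)
    (hk : k ∈ SGamma N q) : φ (k * g * k⁻¹) = φ g := by
  rw [h.map_mul _ _ (mul_mem hk hg) (inv_mem hk), h.map_mul _ _ hk hg, h.map_inv hk]
  abel

theorem map_pow (h : IsQHom N q p φ) {g : SL(2, ℚ)} (hg : g ∈ SGamma N q) (n : ℕ) :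
    φ (g ^ n) = n • φ g := by
  induction n with
  | zero => simp [h.map_one]
  | succ n ih => rw [pow_succ, h.map_mul _ _ (pow_mem hg n) hg, ih, succ_nsmul]

theorem eq_zero_of_nsmul (h : IsQHom N q p φ) {k : ℕ} (hk : Nat.Coprime k p) {a : A}
    (ha : k • a = 0) : a = 0 := by
  have hb := Nat.gcd_eq_gcd_ab k p
  rw [hk, Nat.cast_one] at hb
  have h1 : ((1 : ℤ) • a : A) = 0 := by
    rw [hb, add_smul, mul_comm (k : ℤ), mul_comm (p : ℤ), mul_smul, mul_smul,
      natCast_zsmul, natCast_zsmul, ha, h.torsion a, smul_zero, smul_zero, add_zero]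
  simpa using h1

theorem eq_zero_of_two_nsmul (h : IsQHom N q p φ) {a : A} (ha : a + a = 0) : a = 0 :=
  h.eq_zero_of_nsmul ((Nat.coprime_primes Nat.prime_two h.hp).mpr (Ne.symm h.hp2))
    (by rw [two_nsmul]; exact ha)

theorem eq_zero_of_q_pow_nsmul (h : IsQHom N q p φ) (hqp : q ≠ p) {n : ℕ} {a : A}
    (ha : (q ^ n) • a = 0) : a = 0 :=
  h.eq_zero_of_nsmul (((Nat.coprime_primes h.hq h.hp).mpr hqp).pow_left n) ha

end IsQHom

/-- Powers of an element of trace `2`. -/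
theorem unip_pow {P : SL(2, ℚ)} (hP : P 0 0 + P 1 1 = 2) (m : ℕ) :
    (P ^ m) 0 0 = 1 + m * (P 0 0 - 1) ∧ (P ^ m) 0 1 = m * P 0 1 ∧ (P ^ m) 1 0 = m * P 1 0 ∧
      (P ^ m) 1 1 = 1 + m * (P 1 1 - 1) := by
  have hd : P 1 1 = 2 - P 0 0 := by linarith
  have hdet := det_eq P
  rw [hd] at hdet
  induction m with
  | zero => simp
  | succ m ih =>
    obtain ⟨i00, i01, i10, i11⟩ := ih
    rw [pow_succ]
    simp only [mul00, mul01, mul10, mul11, i00, i01, i10, i11, hd, Nat.cast_succ]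
    refine ⟨?_, ?_, ?_, ?_⟩
    · linear_combination (-(m : ℚ)) * hdet
    · ring
    · ring
    · linear_combination (-(m : ℚ)) * hdet

/-- The standing homomorphism kills every element of trace `2` of `SGamma N q`. -/
theorem IsQHom.unip (h : IsQHom N q p φ) {P : SL(2, ℚ)} (hP : P ∈ SGamma N q)
    (htr : P 0 0 + P 1 1 = 2) : φ P = 0 := by
  obtain ⟨⟨n1, m1, e1⟩, ⟨n2, m2, e2⟩, -, r, ⟨n3, m3, e3⟩, hr⟩ := mem_SGamma_iff.mp hP
  set n := n1 + n2 + n3 with hn
  obtain ⟨i00, i01, i10, i11⟩ := unip_pow htr (q ^ n)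
  have hd : P 1 1 = 2 - P 0 0 := by linarith
  have hdet := det_eq (P ^ (q ^ n))
  set a : ℤ := 1 + m1 * (q : ℤ) ^ (n2 + n3) - (q : ℤ) ^ n with ha
  set b : ℤ := m2 * (q : ℤ) ^ (n1 + n3) with hb
  set c : ℤ := (N : ℤ) * (m3 * (q : ℤ) ^ (n1 + n2)) with hc
  set d : ℤ := 2 - a with hd'
  have ea : (P ^ (q ^ n)) 0 0 = (a : ℚ) := by
    rw [i00, ha, hn]; push_cast; rw [← e1]; ring
  have eb : (P ^ (q ^ n)) 0 1 = (b : ℚ) := by
    rw [i01, hb, hn]; push_cast; rw [← e2]; ring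
  have ec : (P ^ (q ^ n)) 1 0 = (c : ℚ) := by
    rw [i10, hc, hn, hr]; push_cast; rw [← e3]; ring
  have ed : (P ^ (q ^ n)) 1 1 = (d : ℚ) := by
    rw [hd']; push_cast; rw [← ea, i00, i11, hd]; ring
  rw [ea, eb, ec, ed] at hdet
  have hdetZ : a * d - b * c = 1 := by exact_mod_cast hdet
  let γ : SL(2, ℤ) := ⟨!![a, b; c, d], by rw [Matrix.det_fin_two_of]; exact hdetZ⟩
  have hγ : castSL γ = P ^ (q ^ n) := sl_ext ea.symm eb.symm ec.symm ed.symm
  have hγN : γ ∈ Gamma0 N := by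
    rw [Gamma0_mem]
    show ((c : ℤ) : ZMod N) = 0
    rw [hc]; push_cast; simp
  have := h.map_unip γ hγN (by show a + d = 2; rw [hd']; ring)
  rw [hγ, h.map_pow hP] at this
  by_cases hqp : q = p
  · -- `P` is a `q`-th power of a unipotent of the group
    have hq0 := h.q_ne
    set g := (P 0 0 - 1) / (q : ℚ) with hg
    let P' : SL(2, ℚ) := ⟨!![1 + g, P 0 1 / q; P 1 0 / q, 1 - g], by
      rw [Matrix.det_fin_two_of, hg]
      have hdP := det_eq P
      rw [hd] at hdP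
      field_simp
      linear_combination hdP⟩
    have hP' := mem_SGamma_iff.mp hP
    have hinv : (q : ℚ)⁻¹ ∈ qInts q := by simpa using pow_inv_mem_qInts h.hq.ne_zero 1
    have hg' : g ∈ qInts q := mul_mem (sub_mem hP'.1 (one_mem _)) hinv
    have hmem : P' ∈ SGamma N q := mem_SGamma_iff.mpr
      ⟨add_mem (one_mem _) hg', mul_mem hP'.2.1 hinv, sub_mem (one_mem _) hg',
        hP'.2.2.2.mul_right hinv⟩
    have htr' : P' 0 0 + P' 1 1 = 2 := by
      show (1 + g) + (1 - g) = 2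
      ring
    obtain ⟨j00, j01, j10, j11⟩ := unip_pow htr' q
    have hpow : P' ^ q = P := by
      refine sl_ext ?_ ?_ ?_ ?_
      · rw [j00]; show 1 + (q : ℚ) * (1 + g - 1) = _; rw [hg]; field_simp; ring
      · rw [j01]; show (q : ℚ) * (P 0 1 / q) = _; field_simp
      · rw [j10]; show (q : ℚ) * (P 1 0 / q) = _; field_simp
      · rw [j11]; show 1 + (q : ℚ) * (1 - g - 1) = _; rw [hg, hd]; field_simp; ring
    rw [← hpow, h.map_pow hmem, hqp, h.torsion]
  · exact h.eq_zero_of_q_pow_nsmul hqp this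

namespace IsQHom

variable (h : IsQHom N q p φ)
include h

theorem map_upU {x : ℚ} (hx : x ∈ qInts q) : φ (upU x) = 0 :=
  h.unip (upU_mem hx) (by simp only [upU00, upU11]; norm_num)

theorem map_loU {z : ℚ} (hz : MulOf q N z) : φ (loU z) = 0 :=
  h.unip (loU_mem hz) (by simp only [loU00, loU11]; norm_num)

/-- `φ` only depends on the bottom row. -/
theorem row_eq {g g' : SL(2, ℚ)} (hg : g ∈ SGamma N q) (hg' : g' ∈ SGamma N q)
    (h10 : g 1 0 = g' 1 0) (h11 : g 1 1 = g' 1 1) : φ g = φ g' := by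
  have hm : g' * g⁻¹ ∈ SGamma N q := mul_mem hg' (inv_mem hg)
  have htr : (g' * g⁻¹) 0 0 + (g' * g⁻¹) 1 1 = 2 := by
    have d1 := det_eq g
    have d2 := det_eq g'
    rw [mul00, mul11, inv00, inv01, inv10, inv11, h10, h11]
    rw [h10, h11] at d1
    linear_combination d1 + d2
  have := h.unip hm htr
  rw [h.map_mul _ _ hg' (inv_mem hg), h.map_inv hg] at this
  rw [← sub_eq_add_neg, sub_eq_zero] at this
  exact this.symm

theorem mul_unip_right {g P : SL(2, ℚ)} (hg : g ∈ SGamma N q) (hP : P ∈ SGamma N q)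
    (htr : P 0 0 + P 1 1 = 2) : φ (g * P) = φ g := by
  rw [h.map_mul _ _ hg hP, h.unip hP htr, add_zero]

end IsQHom

/-- `-1` as an element of `SL(2, ℚ)`. -/
def negU : SL(2, ℚ) := diU (-1)

@[simp] theorem negU00 : negU 0 0 = -1 := rfl
@[simp] theorem negU01 : negU 0 1 = 0 := rfl
@[simp] theorem negU10 : negU 1 0 = 0 := rfl
@[simp] theorem negU11 : negU 1 1 = -1 := by simp [negU]

theorem negU_mem {N q : ℕ} : negU ∈ SGamma N q := by
  rw [mem_SGamma_iff]; simp [MulOf.zero]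

theorem negU_mul_negU : negU * negU = 1 := by
  refine sl_ext ?_ ?_ ?_ ?_ <;> simp [mul00, mul01, mul10, mul11]

theorem negU_comm (g : SL(2, ℚ)) : negU * g = g * negU := by
  refine sl_ext ?_ ?_ ?_ ?_ <;> simp [mul00, mul01, mul10, mul11]

theorem IsQHom.map_negU (h : IsQHom N q p φ) : φ negU = 0 := by
  refine h.eq_zero_of_two_nsmul ?_
  rw [← h.map_mul _ _ negU_mem negU_mem, negU_mul_negU, h.map_one]

theorem IsQHom.map_neg (h : IsQHom N q p φ) {g : SL(2, ℚ)} (hg : g ∈ SGamma N q) :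
    φ (negU * g) = φ g := by
  rw [h.map_mul _ _ negU_mem hg, h.map_negU, zero_add]

end Fermat.Agent.Ihara
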