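import Fermat.Agent.Ihara.Dilate

/-!
# Ihara's lemma: the dilation defect depends only on the lower right entry modulo `N s^{2(k+1)}`
-/

set_option autoImplicit false

open scoped MatrixGroups

namespace Fermat.Agent.Ihara

variable {A : Type*} [AddCommGroup A] {N q p : ℕ} {φ : SL(2, ℚ) → A}

/-- Reduced form: diagonal modulo `M`. -/
def DiagMod (q : ℕ) (M : ℤ) (g : SL(2, ℚ)) : Prop :=
  MulOf q M (g 0 1) ∧ MulOf q M (g 1 0) ∧ MulOf q M (g 0 0 * g 1 1 - 1)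

namespace IsQHom

variable (h : IsQHom N q p φ)
include h

/-- The lower right entry of an element of `InD` is invertible modulo `(N s²)^e`. -/
theorem exists_inv_d {s : ℕ} (e : ℕ) {g : SL(2, ℚ)} (hg : InD N q s g) :
    ∃ y ∈ qInts q, MulOf q (((N : ℤ) * (s : ℤ) ^ 2) ^ e) (g 1 1 * y - 1) := by
  obtain ⟨h00, h01, -, -⟩ := mem_SGamma_iff.mp hg.1
  have ht : MulOf q ((N : ℤ) * (s : ℤ) ^ 2) (-(g 0 1 * g 1 0)) := (hg.2.mul_left h01).neg
  set t : ℚ := -(g 0 1 * g 1 0) with ht'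
  refine ⟨g 0 0 * ∑ i ∈ Finset.range e, t ^ i,
    mul_mem h00 (sum_mem fun i _ => pow_mem ht.mem i), ?_⟩
  obtain ⟨r, hr, hr'⟩ := ht
  refine ⟨-(r ^ e), neg_mem (pow_mem hr e), ?_⟩
  have e1 : g 1 1 * (g 0 0 * ∑ i ∈ Finset.range e, t ^ i) = (1 - t) * ∑ i ∈ Finset.range e, t ^ i := by
    rw [← mul_assoc]; congr 1; rw [ht']; linear_combination det_eq g
  rw [e1, mul_neg_geom_sum, hr']
  push_cast; ring

/-- Reduction to diagonal form modulo `N s^{2(k+1)}` by unipotents. -/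
theorem exists_diagMod {s : ℕ} (hs0 : s ≠ 0) (k : ℕ) {g : SL(2, ℚ)} (hg : InD N q s g) :
    ∃ g', InD N q s g' ∧ defect φ hs0 g' = defect φ hs0 g ∧ g' 1 1 = g 1 1 ∧
      DiagMod q ((N : ℤ) * (s : ℤ) ^ (2 * (k + 1))) g' := by
  set M := (N : ℤ) * (s : ℤ) ^ (2 * (k + 1)) with hM
  obtain ⟨y, hy, hy'⟩ := h.exists_inv_d (k + 1) hg
  have hdy : MulOf q M (g 1 1 * y - 1) := by
    refine hy'.of_dvd ?_
    rw [hM, mul_pow, ← pow_mul]
    exact mul_dvd_mul_right (dvd_pow_self _ (by omega)) _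
  obtain ⟨h00, h01, h11, h10⟩ := mem_SGamma_iff.mp hg.1
  have hlo : InD N q s (loU (-(g 1 0 * y))) :=
    ⟨loU_mem ((hg.2.mul_right hy).neg.of_dvd (dvd_mul_right _ _)),
      by simpa using (hg.2.mul_right hy).neg⟩
  set g₁ := g * loU (-(g 1 0 * y)) with hg₁
  have hg₁D : InD N q s g₁ := hg.mul hlo
  have hb₁ : g₁ 0 1 = g 0 1 := by rw [hg₁, mul01]; simp
  have hd₁ : g₁ 1 1 = g 1 1 := by rw [hg₁, mul11]; simp
  have hup : InD N q s (upU (-(g 0 1 * y))) :=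
    ⟨upU_mem (neg_mem (mul_mem h01 hy)), by simp [MulOf.zero]⟩
  set g₂ := upU (-(g 0 1 * y)) * g₁ with hg₂
  have hd₂ : g₂ 1 1 = g 1 1 := by rw [hg₂, mul11, hd₁]; simp
  have hb₂ : MulOf q M (g₂ 0 1) := by
    have e : g₂ 0 1 = -((g 1 1 * y - 1) * g 0 1) := by
      rw [hg₂, mul01, hb₁, hd₁]; simp; ring
    rw [e]; exact (hdy.mul_right h01).neg
  have hc₂ : MulOf q M (g₂ 1 0) := by
    have e : g₂ 1 0 = -((g 1 1 * y - 1) * g 1 0) := by
      rw [hg₂, mul10, hg₁, mul10]; simp; ring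
    rw [e]; exact (hdy.mul_right h10.mem).neg
  refine ⟨g₂, hup.mul hg₁D, ?_, hd₂, hb₂, hc₂, ?_⟩
  · rw [hg₂, h.defect_mul hs0 hup hg₁D, hg₁, h.defect_mul hs0 hg hlo,
      h.defect_unip hs0 hup (by simp only [upU00, upU11]; norm_num),
      h.defect_unip hs0 hlo (by simp only [loU00, loU11]; norm_num), zero_add, add_zero]
  · have e : g₂ 0 0 * g₂ 1 1 - 1 = g₂ 0 1 * g₂ 1 0 := by linear_combination det_eq g₂
    rw [e]; exact hb₂.mul_right hc₂.mem

variable {s : ℕ} (hs : s.Prime) (hsq : s ≠ q) (hsN : (N : ℤ) ∣ (s : ℤ) - 1)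
include hsq hsN

/-- The defect is a character of the lower right entry. -/
theorem exists_defect_level :
    ∃ k : ℕ, (∀ g g', InD N q s g → InD N q s g' →
        MulOf q ((N : ℤ) * (s : ℤ) ^ (2 * (k + 1))) (g 1 1 - g' 1 1) →
          defect φ hs.ne_zero g = defect φ hs.ne_zero g') := by
  obtain ⟨k, hk⟩ := h.exists_defect_prin hs hsq hsN
  refine ⟨k, fun g g' hg hg' hdd => ?_⟩
  set M := (N : ℤ) * (s : ℤ) ^ (2 * (k + 1)) with hM
  obtain ⟨u, hu, hue, hud, hub, huc, hua⟩ := h.exists_diagMod hs.ne_zero k hg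
  obtain ⟨v, hv, hve, hvd, hvb, hvc, hva⟩ := h.exists_diagMod hs.ne_zero k hg'
  rw [← hM] at hub huc hua hvb hvc hva
  rw [← hue, ← hve]
  obtain ⟨u00, u01, u11, -⟩ := mem_SGamma_iff.mp hu.1
  obtain ⟨v00, v01, v11, -⟩ := mem_SGamma_iff.mp hv.1
  rw [← hud, ← hvd] at hdd
  have hP : Prin q M (u⁻¹ * v) := by
    refine ⟨?_, ?_, ?_, ?_⟩
    · have e : (u⁻¹ * v) 0 0 - 1
          = (u 1 1 - v 1 1) * v 0 0 + (v 0 0 * v 1 1 - 1) - u 0 1 * v 1 0 := by
        rw [mul00, inv00, inv01]; ring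
      rw [e]; exact ((hdd.mul_right v00).add hva).sub (hub.mul_right hvc.mem)
    · rw [mul01, inv00, inv01]
      exact (hvb.mul_left u11).add (hub.neg.mul_right v11)
    · rw [mul10, inv10, inv11]
      exact (huc.neg.mul_right v00).add (hvc.mul_left u00)
    · have e : (u⁻¹ * v) 1 1 - 1
          = -(u 1 0 * v 0 1) + ((u 0 0 * u 1 1 - 1) - u 0 0 * (u 1 1 - v 1 1)) := by
        rw [mul11, inv10, inv11]; ring
      rw [e]; exact (huc.mul_right v01).neg.add (hua.sub (hdd.mul_left u00))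
  have h1 := h.defect_mul hs.ne_zero hu (hu.inv.mul hv)
  rw [mul_inv_cancel_left, hk _ hP, add_zero] at h1
  exact h1.symm

end IsQHom

end Fermat.Agent.Ihara
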