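import Mathlib.NumberTheory.ModularForms.CongruenceSubgroups
import Mathlib.Data.Rat.Lemmas
import Mathlib.Tactic

/-!
# Ihara's lemma: the `{q}`-arithmetic group `Γ₀(N)_{ℤ[1/q]}` inside `SL(2, ℚ)`
-/

set_option autoImplicit false

open CongruenceSubgroup
open scoped MatrixGroups

namespace Fermat.Agent.Ihara

/-- The ring `ℤ[1/q]` as a subring of `ℚ`. -/
def qInts (q : ℕ) : Subring ℚ where
  carrier := {x | ∃ (n : ℕ) (m : ℤ), x * (q : ℚ) ^ n = m}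
  zero_mem' := ⟨0, 0, by simp⟩
  one_mem' := ⟨0, 1, by simp⟩
  add_mem' := by
    rintro a b ⟨n, m, h⟩ ⟨n', m', h'⟩
    refine ⟨n + n', m * (q : ℤ) ^ n' + m' * (q : ℤ) ^ n, ?_⟩
    push_cast
    rw [← h, ← h']
    ring
  mul_mem' := by
    rintro a b ⟨n, m, h⟩ ⟨n', m', h'⟩
    refine ⟨n + n', m * m', ?_⟩
    push_cast
    rw [← h, ← h']
    ring
  neg_mem' := by
    rintro a ⟨n, m, h⟩
    exact ⟨n, -m, by push_cast; rw [← h]; ring⟩

theorem mem_qInts {q : ℕ} {x : ℚ} : x ∈ qInts q ↔ ∃ (n : ℕ) (m : ℤ), x * (q : ℚ) ^ n = m :=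
  Iff.rfl

theorem int_mem_qInts (q : ℕ) (m : ℤ) : (m : ℚ) ∈ qInts q := intCast_mem _ m

theorem nat_mem_qInts (q : ℕ) (m : ℕ) : (m : ℚ) ∈ qInts q := natCast_mem _ m

theorem pow_inv_mem_qInts {q : ℕ} (hq : q ≠ 0) (n : ℕ) : ((q : ℚ) ^ n)⁻¹ ∈ qInts q := by
  refine ⟨n, 1, ?_⟩
  have h0 : ((q : ℚ) ^ n) ≠ 0 := pow_ne_zero _ (Nat.cast_ne_zero.mpr hq)
  rw [inv_mul_cancel₀ h0]; simp

/-- `x ∈ M·ℤ[1/q]`. -/
def MulOf (q : ℕ) (M : ℤ) (x : ℚ) : Prop := ∃ r ∈ qInts q, x = (M : ℚ) * r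

namespace MulOf

variable {q : ℕ} {M M' : ℤ} {x y : ℚ}

theorem zero : MulOf q M 0 := ⟨0, zero_mem _, by simp⟩

theorem self : MulOf q M (M : ℚ) := ⟨1, one_mem _, by simp⟩

theorem add (hx : MulOf q M x) (hy : MulOf q M y) : MulOf q M (x + y) := by
  obtain ⟨r, hr, rfl⟩ := hx
  obtain ⟨s, hs, rfl⟩ := hy
  exact ⟨r + s, add_mem hr hs, by ring⟩

theorem neg (hx : MulOf q M x) : MulOf q M (-x) := by
  obtain ⟨r, hr, rfl⟩ := hx
  exact ⟨-r, neg_mem hr, by ring⟩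

theorem sub (hx : MulOf q M x) (hy : MulOf q M y) : MulOf q M (x - y) := by
  simpa [sub_eq_add_neg] using hx.add hy.neg

theorem mul_right (hx : MulOf q M x) (hy : y ∈ qInts q) : MulOf q M (x * y) := by
  obtain ⟨r, hr, rfl⟩ := hx
  exact ⟨r * y, mul_mem hr hy, by ring⟩

theorem mul_left (hy : y ∈ qInts q) (hx : MulOf q M x) : MulOf q M (y * x) := by
  rw [mul_comm]; exact hx.mul_right hy

theorem mem (hx : MulOf q M x) : x ∈ qInts q := by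
  obtain ⟨r, hr, rfl⟩ := hx
  exact mul_mem (int_mem_qInts q M) hr

theorem of_dvd (h : M' ∣ M) (hx : MulOf q M x) : MulOf q M' x := by
  obtain ⟨c, rfl⟩ := h
  obtain ⟨r, hr, rfl⟩ := hx
  exact ⟨c * r, mul_mem (int_mem_qInts q c) hr, by push_cast; ring⟩

theorem one_iff : MulOf q 1 x ↔ x ∈ qInts q :=
  ⟨fun h => h.mem, fun h => ⟨x, h, by simp⟩⟩

theorem of_int {m : ℤ} (h : M ∣ m) : MulOf q M (m : ℚ) := by
  obtain ⟨c, rfl⟩ := h
  exact ⟨c, int_mem_qInts q c, by push_cast; ring⟩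

theorem mul_mul {q : ℕ} {M M' : ℤ} {x y : ℚ} (hx : MulOf q M x) (hy : MulOf q M' y) :
    MulOf q (M * M') (x * y) := by
  obtain ⟨r, hr, rfl⟩ := hx
  obtain ⟨s, hs, rfl⟩ := hy
  exact ⟨r * s, mul_mem hr hs, by push_cast; ring⟩

theorem div_int (hx : MulOf q (M * M') x) (hM : M' ≠ 0) : MulOf q M (x / (M' : ℚ)) := by
  obtain ⟨r, hr, rfl⟩ := hx
  have : (M' : ℚ) ≠ 0 := Int.cast_ne_zero.mpr hM
  exact ⟨r, hr, by push_cast; field_simp⟩

/-- An integer in `M·ℤ[1/q]` is divisible by `M` when `M` is prime to `q`. -/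
theorem int_dvd {m : ℤ} (hcop : IsCoprime M (q : ℤ)) (h : MulOf q M (m : ℚ)) : M ∣ m := by
  obtain ⟨r, ⟨n, k, hk⟩, hm⟩ := h
  have e : (m * (q : ℤ) ^ n : ℤ) = M * k := by
    have : ((m * (q : ℤ) ^ n : ℤ) : ℚ) = ((M * k : ℤ) : ℚ) := by
      push_cast
      rw [hm, ← hk]
      ring
    exact_mod_cast this
  exact (hcop.pow_right (n := n)).dvd_of_dvd_mul_right ⟨k, e⟩

end MulOf

section Elements

/-- Upper unipotent. -/
def upU (x : ℚ) : SL(2, ℚ) := ⟨!![1, x; 0, 1], by rw [Matrix.det_fin_two_of]; ring⟩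

/-- Lower unipotent. -/
def loU (z : ℚ) : SL(2, ℚ) := ⟨!![1, 0; z, 1], by rw [Matrix.det_fin_two_of]; ring⟩

/-- Diagonal element `diag(s, s⁻¹)`. -/
def diU (s : ℚˣ) : SL(2, ℚ) :=
  ⟨!![(s : ℚ), 0; 0, ((s⁻¹ : ℚˣ) : ℚ)], by
    rw [Matrix.det_fin_two_of, ← Units.val_mul]; simp⟩

theorem sl_ext {R : Type*} [CommRing R] {g h : SL(2, R)} (h00 : g 0 0 = h 0 0)
    (h01 : g 0 1 = h 0 1) (h10 : g 1 0 = h 1 0) (h11 : g 1 1 = h 1 1) : g = h := by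
  apply Matrix.SpecialLinearGroup.ext
  intro i j
  fin_cases i <;> fin_cases j <;> assumption

variable {R : Type*} [CommRing R] (g h : SL(2, R))

theorem mul00 : (g * h) 0 0 = g 0 0 * h 0 0 + g 0 1 * h 1 0 := by
  simp [Matrix.mul_apply, Fin.sum_univ_two]

theorem mul01 : (g * h) 0 1 = g 0 0 * h 0 1 + g 0 1 * h 1 1 := by
  simp [Matrix.mul_apply, Fin.sum_univ_two]

theorem mul10 : (g * h) 1 0 = g 1 0 * h 0 0 + g 1 1 * h 1 0 := by
  simp [Matrix.mul_apply, Fin.sum_univ_two]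

theorem mul11 : (g * h) 1 1 = g 1 0 * h 0 1 + g 1 1 * h 1 1 := by
  simp [Matrix.mul_apply, Fin.sum_univ_two]

theorem inv00 : g⁻¹ 0 0 = g 1 1 := by
  simp [Matrix.SpecialLinearGroup.coe_inv, Matrix.adjugate_fin_two]

theorem inv01 : g⁻¹ 0 1 = -g 0 1 := by
  simp [Matrix.SpecialLinearGroup.coe_inv, Matrix.adjugate_fin_two]

theorem inv10 : g⁻¹ 1 0 = -g 1 0 := by
  simp [Matrix.SpecialLinearGroup.coe_inv, Matrix.adjugate_fin_two]

theorem inv11 : g⁻¹ 1 1 = g 0 0 := by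
  simp [Matrix.SpecialLinearGroup.coe_inv, Matrix.adjugate_fin_two]

theorem one00 : (1 : SL(2, R)) 0 0 = 1 := by simp
theorem one01 : (1 : SL(2, R)) 0 1 = 0 := by simp
theorem one10 : (1 : SL(2, R)) 1 0 = 0 := by simp
theorem one11 : (1 : SL(2, R)) 1 1 = 1 := by simp

theorem det_eq : g 0 0 * g 1 1 - g 0 1 * g 1 0 = 1 := by
  have h := g.prop
  rwa [Matrix.det_fin_two] at h

end Elements

@[simp] theorem upU00 (x : ℚ) : upU x 0 0 = 1 := rfl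
@[simp] theorem upU01 (x : ℚ) : upU x 0 1 = x := rfl
@[simp] theorem upU10 (x : ℚ) : upU x 1 0 = 0 := rfl
@[simp] theorem upU11 (x : ℚ) : upU x 1 1 = 1 := rfl
@[simp] theorem loU00 (x : ℚ) : loU x 0 0 = 1 := rfl
@[simp] theorem loU01 (x : ℚ) : loU x 0 1 = 0 := rfl
@[simp] theorem loU10 (x : ℚ) : loU x 1 0 = x := rfl
@[simp] theorem loU11 (x : ℚ) : loU x 1 1 = 1 := rfl
@[simp] theorem diU00 (s : ℚˣ) : diU s 0 0 = (s : ℚ) := rfl
@[simp] theorem diU01 (s : ℚˣ) : diU s 0 1 = 0 := rfl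
@[simp] theorem diU10 (s : ℚˣ) : diU s 1 0 = 0 := rfl
@[simp] theorem diU11 (s : ℚˣ) : diU s 1 1 = ((s⁻¹ : ℚˣ) : ℚ) := rfl

theorem upU_zero : upU 0 = 1 := sl_ext (by simp) (by simp) (by simp) (by simp)

theorem upU_add (x y : ℚ) : upU (x + y) = upU x * upU y := by
  refine sl_ext ?_ ?_ ?_ ?_ <;> simp only [mul00, mul01, mul10, mul11, upU00, upU01, upU10, upU11] <;> ring

theorem upU_inv (x : ℚ) : (upU x)⁻¹ = upU (-x) := by
  apply inv_eq_of_mul_eq_one_right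
  rw [← upU_add, add_neg_cancel, upU_zero]

theorem loU_zero : loU 0 = 1 := sl_ext (by simp) (by simp) (by simp) (by simp)

theorem loU_add (x y : ℚ) : loU (x + y) = loU x * loU y := by
  refine sl_ext ?_ ?_ ?_ ?_ <;> simp only [mul00, mul01, mul10, mul11, loU00, loU01, loU10, loU11] <;> ring

theorem loU_inv (x : ℚ) : (loU x)⁻¹ = loU (-x) := by
  apply inv_eq_of_mul_eq_one_right
  rw [← loU_add, add_neg_cancel, loU_zero]

/-- The group `Γ₀(N)` over `ℤ[1/q]`. -/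
def SGamma (N q : ℕ) : Subgroup SL(2, ℚ) where
  carrier := {g | (∀ i j, g i j ∈ qInts q) ∧ MulOf q N (g 1 0)}
  one_mem' := by
    refine ⟨fun i j => ?_, ?_⟩
    · fin_cases i <;> fin_cases j <;> simp
    · rw [one10]; exact MulOf.zero
  mul_mem' := by
    rintro g h ⟨hg, hg'⟩ ⟨hh, hh'⟩
    refine ⟨fun i j => ?_, ?_⟩
    · rw [Matrix.SpecialLinearGroup.coe_mul, Matrix.mul_apply, Fin.sum_univ_two]
      exact add_mem (mul_mem (hg _ _) (hh _ _)) (mul_mem (hg _ _) (hh _ _))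
    · rw [mul10]; exact (hg'.mul_right (hh _ _)).add (hh'.mul_left (hg _ _))
  inv_mem' := by
    rintro g ⟨hg, hg'⟩
    refine ⟨fun i j => ?_, ?_⟩
    · fin_cases i <;> fin_cases j <;>
        simp only [Fin.zero_eta, Fin.isValue, Fin.mk_one, inv00, inv01, inv10, inv11] <;>
        first | exact neg_mem (hg _ _) | exact hg _ _
    · rw [inv10]; exact hg'.neg

theorem mem_SGamma_iff {N q : ℕ} {g : SL(2, ℚ)} :
    g ∈ SGamma N q ↔ g 0 0 ∈ qInts q ∧ g 0 1 ∈ qInts q ∧ g 1 1 ∈ qInts q ∧ MulOf q N (g 1 0) := by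
  constructor
  · rintro ⟨h, h'⟩; exact ⟨h _ _, h _ _, h _ _, h'⟩
  · rintro ⟨h00, h01, h11, h10⟩
    refine ⟨fun i j => ?_, h10⟩
    fin_cases i <;> fin_cases j
    exacts [h00, h01, h10.mem, h11]

theorem upU_mem {N q : ℕ} {x : ℚ} (hx : x ∈ qInts q) : upU x ∈ SGamma N q := by
  rw [mem_SGamma_iff]; simp [hx, MulOf.zero]

theorem loU_mem {N q : ℕ} {z : ℚ} (hz : MulOf q N z) : loU z ∈ SGamma N q := by
  rw [mem_SGamma_iff]; simp [hz]

/-- The inclusion `SL(2, ℤ) → SL(2, ℚ)`. -/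
def castSL : SL(2, ℤ) →* SL(2, ℚ) := Matrix.SpecialLinearGroup.map (Int.castRingHom ℚ)

@[simp] theorem castSL_apply (γ : SL(2, ℤ)) (i j : Fin 2) : castSL γ i j = (γ i j : ℚ) := rfl

variable {A : Type*} [AddCommGroup A]

/-- A homomorphism on `SGamma N q` to a group of odd prime exponent killing integral unipotents. -/
structure IsQHom (N q p : ℕ) (φ : SL(2, ℚ) → A) : Prop where
  hN : N ≠ 0
  hq : q.Prime
  hqN : ¬ q ∣ N
  hp : p.Prime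
  hp2 : p ≠ 2
  torsion : ∀ a : A, p • a = 0
  map_mul : ∀ g h, g ∈ SGamma N q → h ∈ SGamma N q → φ (g * h) = φ g + φ h
  map_unip : ∀ γ : SL(2, ℤ), γ ∈ Gamma0 N → γ 0 0 + γ 1 1 = 2 → φ (castSL γ) = 0

end Fermat.Agent.Ihara
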