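import Fermat.Agent.Ihara.UTrick

/-!
# Ihara's lemma: invariance under conjugation by `diag(s, 1/s)` for primes `s ≡ 1 (mod N)`
-/

set_option autoImplicit false

open scoped MatrixGroups

namespace Fermat.Agent.Ihara

variable {A : Type*} [AddCommGroup A] {N q p : ℕ} {φ : SL(2, ℚ) → A}

/-- `s` as a unit of `ℚ`. -/
def sUnit {s : ℕ} (hs : s ≠ 0) : ℚˣ := Units.mk0 (s : ℚ) (Nat.cast_ne_zero.mpr hs)

/-- Conjugation by `diag(s, 1/s)`. -/
def dil {s : ℕ} (hs : s ≠ 0) (g : SL(2, ℚ)) : SL(2, ℚ) :=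
  diU (sUnit hs) * g * (diU (sUnit hs))⁻¹

section

variable {s : ℕ} (hs : s ≠ 0) (g : SL(2, ℚ))

theorem dil00 : dil hs g 0 0 = g 0 0 := by
  simp [dil, sUnit, mul00, mul01, inv00, inv10]; field_simp [(Nat.cast_ne_zero.mpr hs : (s : ℚ) ≠ 0)]

theorem dil01 : dil hs g 0 1 = (s : ℚ) ^ 2 * g 0 1 := by
  simp [dil, sUnit, mul01, inv11, inv01]; ring

theorem dil10 : dil hs g 1 0 = g 1 0 / (s : ℚ) ^ 2 := by
  simp [dil, sUnit, mul10, mul11, inv00, inv10]; field_simp [(Nat.cast_ne_zero.mpr hs : (s : ℚ) ≠ 0)]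

theorem dil11 : dil hs g 1 1 = g 1 1 := by
  simp [dil, sUnit, mul10, mul11, inv11, inv01]; field_simp [(Nat.cast_ne_zero.mpr hs : (s : ℚ) ≠ 0)]

theorem dil_mul (h : SL(2, ℚ)) : dil hs (g * h) = dil hs g * dil hs h := by
  simp only [dil]; group

end

/-- Domain of the defect of `dil`. -/
def InD (N q s : ℕ) (g : SL(2, ℚ)) : Prop :=
  g ∈ SGamma N q ∧ MulOf q ((N : ℤ) * (s : ℤ) ^ 2) (g 1 0)

theorem InD.mem_dil {s : ℕ} {hs : s ≠ 0} {g : SL(2, ℚ)} (hg : InD N q s g) :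
    dil hs g ∈ SGamma N q := by
  obtain ⟨h00, h01, h11, -⟩ := mem_SGamma_iff.mp hg.1
  rw [mem_SGamma_iff, dil00, dil01, dil10, dil11]
  refine ⟨h00, mul_mem (pow_mem (nat_mem_qInts q s) 2) h01, h11, ?_⟩
  have := hg.2.div_int (M' := (s : ℤ) ^ 2) (pow_ne_zero _ (Int.natCast_ne_zero.mpr hs))
  simpa using this

theorem InD.mul {s : ℕ} {g h : SL(2, ℚ)} (hg : InD N q s g) (hh : InD N q s h) :
    InD N q s (g * h) := by
  refine ⟨mul_mem hg.1 hh.1, ?_⟩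
  rw [mul10]
  exact (hg.2.mul_right (mem_SGamma_iff.mp hh.1).1).add
    (hh.2.mul_left (mem_SGamma_iff.mp hg.1).2.2.1)

theorem InD.inv {s : ℕ} {g : SL(2, ℚ)} (hg : InD N q s g) : InD N q s g⁻¹ :=
  ⟨inv_mem hg.1, by rw [inv10]; exact hg.2.neg⟩

/-- Principal congruence subgroup of level `M`. -/
def Prin (q : ℕ) (M : ℤ) (g : SL(2, ℚ)) : Prop :=
  MulOf q M (g 0 0 - 1) ∧ MulOf q M (g 0 1) ∧ MulOf q M (g 1 0) ∧ MulOf q M (g 1 1 - 1)

theorem Prin.inU {L : ℕ} {g : SL(2, ℚ)} (hg : Prin q ((N : ℤ) * (L : ℤ) ^ 2) g) :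
    InU N q L g := by
  obtain ⟨h00, h01, h10, h11⟩ := hg
  have a00 : g 0 0 ∈ qInts q := by simpa using add_mem h00.mem (one_mem (qInts q))
  have a11 : g 1 1 ∈ qInts q := by simpa using add_mem h11.mem (one_mem (qInts q))
  refine ⟨mem_SGamma_iff.mpr ⟨a00, h01.mem, a11, h10.of_dvd (dvd_mul_right _ _)⟩, h10, ?_⟩
  have h := (h00.sub h11).of_dvd (dvd_mul_of_dvd_right (dvd_pow_self (L : ℤ) two_ne_zero) _)
  simpa using h

theorem Prin.conj_loU {M : ℤ} {g : SL(2, ℚ)} (hg : Prin q M g) {x : ℚ} (hx : x ∈ qInts q) :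
    Prin q M (loU x * g * (loU x)⁻¹) := by
  obtain ⟨h00, h01, h10, h11⟩ := hg
  have e00 : (loU x * g * (loU x)⁻¹) 0 0 - 1 = (g 0 0 - 1) - x * g 0 1 := by
    simp [mul00, mul01, inv00, inv10]; ring
  have e01 : (loU x * g * (loU x)⁻¹) 0 1 = g 0 1 := by
    simp [mul01, inv11, inv01]
  have e10 : (loU x * g * (loU x)⁻¹) 1 0
      = g 1 0 + x * (g 0 0 - 1) - x * (g 1 1 - 1) - x * (x * g 0 1) := by
    simp [mul10, mul11, inv00, inv10]; ring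
  have e11 : (loU x * g * (loU x)⁻¹) 1 1 - 1 = (g 1 1 - 1) + x * g 0 1 := by
    simp [mul10, mul11, inv11, inv01]; ring
  exact ⟨e00 ▸ h00.sub (h01.mul_left hx), e01 ▸ h01,
    e10 ▸ ((h10.add (h00.mul_left hx)).sub (h11.mul_left hx)).sub ((h01.mul_left hx).mul_left hx),
    e11 ▸ h11.add (h01.mul_left hx)⟩

/-- The defect of invariance under `dil`. -/
def defect (φ : SL(2, ℚ) → A) {s : ℕ} (hs : s ≠ 0) (g : SL(2, ℚ)) : A := φ (dil hs g) - φ g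

namespace IsQHom

variable (h : IsQHom N q p φ) {s : ℕ} (hs : s.Prime) (hsq : s ≠ q) (hsN : (N : ℤ) ∣ (s : ℤ) - 1)
include h

theorem defect_mul (hs0 : s ≠ 0) {g g' : SL(2, ℚ)} (hg : InD N q s g) (hg' : InD N q s g') :
    defect φ hs0 (g * g') = defect φ hs0 g + defect φ hs0 g' := by
  rw [defect, defect, defect, dil_mul, h.map_mul _ _ hg.mem_dil hg'.mem_dil,
    h.map_mul _ _ hg.1 hg'.1]
  abel

theorem defect_unip (hs0 : s ≠ 0) {P : SL(2, ℚ)} (hP : InD N q s P)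
    (htr : P 0 0 + P 1 1 = 2) : defect φ hs0 P = 0 := by
  rw [defect, h.unip hP.1 htr, h.unip hP.mem_dil (by rw [dil00, dil11]; exact htr), sub_zero]

include hsq hsN

/-- `dil` fixes `φ` on a principal congruence subgroup. -/
theorem exists_defect_prin :
    ∃ k : ℕ, ∀ g, Prin q ((N : ℤ) * (s : ℤ) ^ (2 * (k + 1))) g → defect φ hs.ne_zero g = 0 := by
  obtain ⟨k, hk⟩ := h.exists_level hs hsq
  refine ⟨k, fun g hg => ?_⟩
  set L := s ^ (k + 1) with hL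
  have hg' : Prin q ((N : ℤ) * (L : ℤ) ^ 2) g := by
    rw [hL]; push_cast; rwa [← pow_mul, mul_comm (k + 1) 2]
  obtain ⟨m, hm⟩ := hsN
  have hmQ : (s : ℚ) = 1 + (N : ℚ) * m := by
    have : (s : ℚ) - 1 = (N : ℚ) * m := by exact_mod_cast hm
    linarith
  have hs0 : (s : ℚ) ≠ 0 := Nat.cast_ne_zero.mpr hs.ne_zero
  set y₂ : ℚ := (((-m : ℤ)) : ℚ) / s with hy₂
  set x₂ : ℚ := -((s : ℚ) * N) with hx₂
  have hdec : diU (sUnit hs.ne_zero) = upU (m : ℚ) * loU (N : ℚ) * upU y₂ * loU x₂ := by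
    refine sl_ext ?_ ?_ ?_ ?_ <;>
      simp only [mul00, mul01, mul10, mul11, upU00, upU01, upU10, upU11, loU00, loU01, loU10,
        loU11, diU00, diU01, diU10, diU11, sUnit, Units.val_mk0, Units.val_inv_eq_inv_val, hy₂,
        hx₂, Int.cast_neg] <;> field_simp <;> rw [hmQ] <;> ring
  have hx₂m : x₂ ∈ qInts q := neg_mem (mul_mem (nat_mem_qInts q s) (nat_mem_qInts q N))
  set T₁ := loU x₂ * g * (loU x₂)⁻¹ with hT₁
  have hT₁U : InU N q L T₁ := (hg'.conj_loU hx₂m).inU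
  have hT₂ : conjU y₂ T₁ ∈ SGamma N q := by
    have hL0 : L ≠ 0 := pow_ne_zero _ hs.ne_zero
    have := hT₁U.conj hL0 ((-m) * (s : ℤ) ^ k)
    have e : (((-m) * (s : ℤ) ^ k : ℤ) : ℚ) / (L : ℚ) = y₂ := by
      rw [hy₂, hL]; push_cast; field_simp; ring
    rw [e] at this
    exact this.mem
  have hlo : loU (N : ℚ) ∈ SGamma N q := loU_mem (by simpa using (MulOf.self (q := q) (M := (N : ℤ))))
  have e2 : dil hs.ne_zero g
      = upU (m : ℚ) * (loU (N : ℚ) * conjU y₂ T₁ * (loU (N : ℚ))⁻¹) * (upU (m : ℚ))⁻¹ := by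
    rw [dil, hdec, hT₁, conjU, ← upU_inv]; group
  rw [defect, e2, h.map_conj (mul_mem (mul_mem hlo hT₂) (inv_mem hlo)) (upU_mem (int_mem_qInts q m)),
    h.map_conj hT₂ hlo, hy₂, hk T₁ hT₁U, hT₁,
    h.map_conj hg'.inU.mem (loU_mem ?_), sub_self]
  exact ⟨-(s : ℚ), neg_mem (nat_mem_qInts q s), by rw [hx₂]; push_cast; ring⟩

end IsQHom

end Fermat.Agent.Ihara
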