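import Fermat.Agent.Ihara.Defs
import Mathlib.NumberTheory.LSeries.PrimesInAP
import Mathlib.FieldTheory.Finite.Basic

/-!
# Ihara's lemma: integral representatives modulo ideals of `ℤ[1/q]`
-/

set_option autoImplicit false

namespace Fermat.Agent.Ihara

variable {q : ℕ}

/-- A nonzero element of `ℤ[1/q]` is a unit times a natural number prime to `q`. -/
theorem exists_core (hq : q.Prime) {x : ℚ} (hx : x ∈ qInts q) (hx0 : x ≠ 0) :
    ∃ (C : ℕ) (u : ℚ), 0 < C ∧ C.Coprime q ∧ u ∈ qInts q ∧ u⁻¹ ∈ qInts q ∧ x = C * u := by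
  obtain ⟨n, m, hm⟩ := hx
  have hqn : (q : ℚ) ^ n ≠ 0 := pow_ne_zero _ (Nat.cast_ne_zero.mpr hq.ne_zero)
  have hm0 : m ≠ 0 := by
    rintro rfl
    rw [Int.cast_zero, mul_eq_zero] at hm
    exact hm.elim hx0 hqn
  obtain ⟨e, C, hC, hmC⟩ :=
    Nat.exists_eq_pow_mul_and_not_dvd (Int.natAbs_ne_zero.mpr hm0) q hq.ne_one
  obtain ⟨s, hs, hms⟩ : ∃ s : ℤ, (s = 1 ∨ s = -1) ∧ m = s * m.natAbs := by
    rcases Int.natAbs_eq m with h | h
    · exact ⟨1, Or.inl rfl, by rw [one_mul]; exact h⟩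
    · exact ⟨-1, Or.inr rfl, by rw [neg_one_mul]; exact h⟩
  refine ⟨C, (s : ℚ) * (q : ℚ) ^ e * ((q : ℚ) ^ n)⁻¹, ?_, ((hq.coprime_iff_not_dvd).mpr hC).symm,
    mul_mem (mul_mem (int_mem_qInts q s) (pow_mem (nat_mem_qInts q q) e))
      (pow_inv_mem_qInts hq.ne_zero n), ?_, ?_⟩
  · rcases Nat.eq_zero_or_pos C with h | h
    · exact absurd (h ▸ dvd_zero q) hC
    · exact h
  · have hsinv : ((s : ℚ))⁻¹ ∈ qInts q := by
      rcases hs with rfl | rfl <;> simp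
    rw [mul_inv, mul_inv, inv_inv]
    exact mul_mem (mul_mem hsinv (pow_inv_mem_qInts hq.ne_zero e)) (pow_mem (nat_mem_qInts q q) n)
  · have e1 : (m : ℚ) = (s : ℚ) * ((q : ℚ) ^ e * (C : ℚ)) := by
      rw [hms]; push_cast [hmC]; ring
    field_simp
    linear_combination hm + e1

/-- An element of `ℤ[1/q]` invertible modulo `C` (prime to `q`) is congruent to an integer prime
to `C`. -/
theorem exists_int_congr (hq : q.Prime) {C : ℕ} (hCq : C.Coprime q) {x y : ℚ} (hx : x ∈ qInts q)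
    (hy : y ∈ qInts q) (hxy : MulOf q C (x * y - 1)) :
    ∃ D₀ : ℤ, MulOf q C ((D₀ : ℚ) - x) ∧ IsCoprime D₀ (C : ℤ) := by
  obtain ⟨n, m, hm⟩ := hx
  obtain ⟨k, m', hm'⟩ := hy
  obtain ⟨a, b, hab⟩ : IsCoprime (q : ℤ) (C : ℤ) := Nat.Coprime.isCoprime hCq.symm
  have hq0 : (q : ℚ) ≠ 0 := Nat.cast_ne_zero.mpr hq.ne_zero
  have hCdvd : ∀ j : ℕ, (C : ℤ) ∣ (q : ℤ) ^ j * a ^ j - 1 := by
    intro j
    rw [← mul_pow]
    have h1 : (C : ℤ) ∣ (q : ℤ) * a - 1 := ⟨-b, by linear_combination hab⟩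
    exact h1.trans (sub_one_dvd_pow_sub_one _ j)
  refine ⟨m * a ^ n, ?_, ?_⟩
  · obtain ⟨r, hr⟩ := hCdvd n
    refine ⟨x * r, mul_mem ⟨n, m, hm⟩ (int_mem_qInts q r), ?_⟩
    have hr' : ((q : ℚ) ^ n * (a : ℚ) ^ n - 1) = (C : ℚ) * r := by exact_mod_cast hr
    push_cast
    linear_combination x * hr' - (a : ℚ) ^ n * hm
  · have hz : MulOf q C ((m * m' - (q : ℤ) ^ (n + k) : ℤ) : ℚ) := by
      obtain ⟨r, hr, he⟩ := hxy
      refine ⟨r * (q : ℚ) ^ (n + k), mul_mem hr (pow_mem (nat_mem_qInts q q) _), ?_⟩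
      push_cast at he ⊢
      rw [← hm, ← hm']
      linear_combination (q : ℚ) ^ (n + k) * he
    obtain ⟨w, hw⟩ := MulOf.int_dvd (Nat.Coprime.isCoprime hCq) hz
    obtain ⟨r, hr⟩ := hCdvd (n + k)
    refine ⟨m' * a ^ k, -(r + w * a ^ (n + k)), ?_⟩
    linear_combination a ^ (n + k) * hw + hr

/-- Dirichlet: primes congruent to an element of `ℤ[1/q]` invertible modulo `C`. -/
theorem exists_prime_congr (hq : q.Prime) {C : ℕ} (hC : 0 < C) (hCq : C.Coprime q) {x y : ℚ}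
    (hx : x ∈ qInts q) (hy : y ∈ qInts q) (hxy : MulOf q C (x * y - 1)) (B : ℕ) :
    ∃ D : ℕ, B < D ∧ D.Prime ∧ MulOf q C ((D : ℚ) - x) := by
  obtain ⟨D₀, h₀, hcop⟩ := exists_int_congr hq hCq hx hy hxy
  obtain ⟨D, hBD, hD, hDD⟩ := Nat.forall_exists_prime_gt_and_zmodEq B (Nat.pos_iff_ne_zero.mp hC) hcop
  refine ⟨D, hBD, hD, ?_⟩
  have h1 : MulOf q C (((D : ℤ) - D₀ : ℤ) : ℚ) := MulOf.of_int (Int.ModEq.dvd hDD.symm)
  have h2 := h1.add h₀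
  push_cast at h2
  simpa using h2

/-- Exponents congruent modulo `φ(L)` give congruent powers of a number prime to `L`. -/
theorem pow_modEq_of_exp_modEq {a L i j : ℕ} (ha : a.Coprime L) (hij : i ≡ j [MOD L.totient]) :
    a ^ i ≡ a ^ j [MOD L] := by
  have key : ∀ i, a ^ i ≡ a ^ (i % L.totient) [MOD L] := by
    intro i
    conv_lhs => rw [← Nat.div_add_mod i L.totient, pow_add, pow_mul]
    simpa using ((Nat.ModEq.pow_totient ha).pow (i / L.totient)).mul_right (a ^ (i % L.totient))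
  exact ((key i).trans (by rw [hij])).trans (key j).symm

/-- Solving `n * s ≡ E (mod F)`. -/
theorem exists_mul_modEq {n F E : ℕ} (hF : F ≠ 0) (h : Nat.gcd n F ∣ E) :
    ∃ s : ℕ, n * s ≡ E [MOD F] := by
  have : NeZero F := ⟨hF⟩
  obtain ⟨e, rfl⟩ := h
  refine ⟨(((Nat.gcdA n F : ℤ) * e : ℤ) : ZMod F).val, ?_⟩
  rw [← ZMod.natCast_eq_natCast_iff]
  have hb := congrArg (fun z : ℤ => (z : ZMod F)) (Nat.gcd_eq_gcd_ab n F)
  push_cast at hb ⊢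
  rw [ZMod.natCast_self, zero_mul, add_zero] at hb
  rw [ZMod.natCast_val, ZMod.cast_id', id, hb]
  ring

/-- The gcd bound used in the `u(1/ℓ)` argument. -/
theorem gcd_dvd_of_not_sq_dvd {n ℓ k : ℕ} (hℓ : ℓ.Prime) (hn : ¬ ℓ ^ 2 ∣ n) :
    Nat.gcd n (ℓ ^ k).totient ∣ ℓ * (ℓ - 1) := by
  rcases Nat.eq_zero_or_pos k with rfl | hk
  · simp
  rw [Nat.totient_prime_pow hℓ hk]
  refine (Nat.gcd_mul_right_dvd_mul_gcd n (ℓ ^ (k - 1)) (ℓ - 1)).trans ?_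
  refine Nat.mul_dvd_mul ?_ (Nat.gcd_dvd_right _ _)
  obtain ⟨i, -, hi⟩ := (Nat.dvd_prime_pow hℓ).mp (Nat.gcd_dvd_right n (ℓ ^ (k - 1)))
  rw [hi]
  rcases i with _ | _ | i
  · simp
  · simp
  · refine absurd ?_ hn
    have h2 : ℓ ^ 2 ∣ Nat.gcd n (ℓ ^ (k - 1)) := by
      rw [hi]; exact pow_dvd_pow _ (by omega)
    exact h2.trans (Nat.gcd_dvd_left _ _)

end Fermat.Agent.Ihara
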