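import Fermat.Agent.Ihara.Defect

/-!
# Ihara's lemma: the defect vanishes, so values only depend on a square class
-/

set_option autoImplicit false

open scoped MatrixGroups

namespace Fermat.Agent.Ihara

variable {A : Type*} [AddCommGroup A] {N q p : ℕ} {φ : SL(2, ℚ) → A}

open Classical in
/-- The value of `φ` on a bottom row `(N n, D)`. -/
noncomputable def rowVal (φ : SL(2, ℚ) → A) (N q : ℕ) (D n : ℤ) : A :=
  if h : ∃ T : SL(2, ℚ), T ∈ SGamma N q ∧ T 1 0 = (N : ℚ) * n ∧ T 1 1 = (D : ℚ) then φ h.choose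
  else 0

theorem exists_row (N q : ℕ) {D n : ℤ} (hcop : IsCoprime D ((N : ℤ) * n)) :
    ∃ T : SL(2, ℚ), T ∈ SGamma N q ∧ T 1 0 = (N : ℚ) * n ∧ T 1 1 = (D : ℚ) := by
  obtain ⟨a, b, hab⟩ := hcop
  let γ : SL(2, ℤ) := ⟨!![a, -b; (N : ℤ) * n, D], by
    rw [Matrix.det_fin_two_of]; linear_combination hab⟩
  have e10 : (castSL γ) 1 0 = (N : ℚ) * n := by
    show (((N : ℤ) * n : ℤ) : ℚ) = _; push_cast; rfl
  refine ⟨castSL γ, mem_SGamma_iff.mpr ⟨?_, ?_, ?_, ?_⟩, e10, rfl⟩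
  · exact int_mem_qInts q _
  · exact int_mem_qInts q _
  · exact int_mem_qInts q _
  · exact ⟨(n : ℚ), int_mem_qInts q n, by rw [e10]; simp⟩

theorem isCoprime_row {D : ℕ} (hD : D.Prime) {N : ℕ} (hDN : ¬ D ∣ N) {n : ℤ}
    (hn : ¬ (D : ℤ) ∣ n) : IsCoprime (D : ℤ) ((N : ℤ) * n) := by
  rw [(Nat.prime_iff_prime_int.mp hD).coprime_iff_not_dvd]
  intro hd
  rcases (Nat.prime_iff_prime_int.mp hD).dvd_or_dvd hd with h | h
  · exact hDN (Int.natCast_dvd_natCast.mp h)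
  · exact hn h

namespace IsQHom

variable (h : IsQHom N q p φ)
include h

theorem rowVal_eq {T : SL(2, ℚ)} (hT : T ∈ SGamma N q) {D n : ℤ}
    (h10 : T 1 0 = (N : ℚ) * n) (h11 : T 1 1 = (D : ℚ)) : φ T = rowVal φ N q D n := by
  have hex : ∃ T : SL(2, ℚ), T ∈ SGamma N q ∧ T 1 0 = (N : ℚ) * n ∧ T 1 1 = (D : ℚ) :=
    ⟨T, hT, h10, h11⟩
  rw [rowVal, dif_pos hex]
  obtain ⟨hm, e10, e11⟩ := hex.choose_spec
  exact h.row_eq hT hm (h10.trans e10.symm) (h11.trans e11.symm)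

theorem rowVal_congr {D n n' : ℤ} (hcop : IsCoprime D ((N : ℤ) * n)) (hd : D ∣ n' - n) :
    rowVal φ N q D n' = rowVal φ N q D n := by
  obtain ⟨T, hT, h10, h11⟩ := exists_row N q hcop
  obtain ⟨k, hk⟩ := hd
  have hP : MulOf q N ((N : ℚ) * k) := ⟨k, int_mem_qInts q k, by simp⟩
  rw [← h.rowVal_eq hT h10 h11, ← h.mul_unip_right hT (loU_mem hP)
    (by simp only [loU00, loU11]; norm_num)]
  refine (h.rowVal_eq (mul_mem hT (loU_mem hP)) ?_ ?_).symm
  · rw [mul10, h10, h11, loU00, loU10]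
    have : (n' : ℚ) - n = (D : ℚ) * k := by exact_mod_cast hk
    linear_combination (-(N : ℚ)) * this
  · rw [mul11, h11, loU01, loU11]; ring

/-- For primes `D ≢ 1 (mod p)` the value is invariant under multiplication by squares. -/
theorem rowVal_mul_sq_of_not_one {D : ℕ} (hD : D.Prime) (hDN : ¬ D ∣ N) (hDp : ¬ p ∣ D - 1)
    {n z : ℤ} (hn : ¬ (D : ℤ) ∣ n) (hz : ¬ (D : ℤ) ∣ z) :
    rowVal φ N q D (n * z ^ 2) = rowVal φ N q D n := by
  have : Fact D.Prime := ⟨hD⟩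
  set F : ZMod D → A := fun x => rowVal φ N q D (x.val : ℤ) with hF
  have hFn : ∀ n : ℤ, ¬ (D : ℤ) ∣ n → F (n : ZMod D) = rowVal φ N q D n := by
    intro n hn
    refine h.rowVal_congr (isCoprime_row hD hDN hn) ?_
    rw [← ZMod.intCast_eq_intCast_iff_dvd_sub]
    simp
  -- shift by a square
  have key : ∀ x w : (ZMod D)ˣ, F (x * w ^ 2 : ZMod D) - F (x : ZMod D)
      = F ((w : ZMod D) ^ 2) - F 1 := by
    intro x w
    obtain ⟨s₀, hs1, hs2⟩ := Nat.chineseRemainder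
      ((hD.coprime_iff_not_dvd).mpr hDN).symm 1 (w : ZMod D).val
    have hcop : s₀.Coprime (N * D) := by
      refine Nat.Coprime.mul_right ?_ ?_
      · rw [Nat.coprime_iff_gcd_eq_one, hs1.gcd_eq, Nat.gcd_one_left]
      · refine (hD.coprime_iff_not_dvd.mpr fun hd => w.ne_zero ?_).symm
        have : ((s₀ : ℕ) : ZMod D) = ((w : ZMod D).val : ℕ) :=
          (ZMod.natCast_eq_natCast_iff _ _ _).mpr hs2
        rw [(ZMod.natCast_eq_zero_iff _ _).mpr hd, ZMod.natCast_zmod_val] at this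
        exact this.symm
    obtain ⟨s, hsb, hs, hsm⟩ := Nat.forall_exists_prime_gt_and_modEq (q + D)
      (Nat.mul_ne_zero h.hN hD.ne_zero) hcop
    have hsN : (N : ℤ) ∣ (s : ℤ) - 1 := by
      have h1 := ((hsm.of_dvd (dvd_mul_right N D)).trans hs1)
      exact_mod_cast (Int.natCast_modEq_iff.mpr h1).symm.dvd
    have hsw : ((s : ℕ) : ZMod D) = (w : ZMod D) := by
      rw [(ZMod.natCast_eq_natCast_iff _ _ _).mpr ((hsm.of_dvd (dvd_mul_left D N)).trans hs2),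
        ZMod.natCast_zmod_val]
    obtain ⟨k, hk⟩ := h.exists_defect_level hs (by omega) hsN
    have hdiff : ∀ u : (ZMod D)ˣ, ∃ T, InD N q s T ∧ T 1 1 = (D : ℚ) ∧
        defect φ hs.ne_zero T = F (u : ZMod D) - F ((u : ZMod D) * w ^ 2) := by
      intro u
      have hu : ¬ (D : ℤ) ∣ ((u : ZMod D).val : ℤ) := by
        rw [← ZMod.intCast_zmod_eq_zero_iff_dvd]; simp
      have hus : ¬ (D : ℤ) ∣ ((u : ZMod D).val : ℤ) * (s : ℤ) ^ 2 := by
        rw [← ZMod.intCast_zmod_eq_zero_iff_dvd]; simp [hsw]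
      obtain ⟨T, hT, h10, h11⟩ := exists_row N q (isCoprime_row hD hDN hus)
      push_cast at h10 h11
      have hTD : InD N q s T :=
        ⟨hT, ⟨(((u : ZMod D).val : ℕ) : ℚ), nat_mem_qInts q _, by rw [h10]; push_cast; ring⟩⟩
      refine ⟨T, hTD, h11, ?_⟩
      have hs0 : (s : ℚ) ≠ 0 := Nat.cast_ne_zero.mpr hs.ne_zero
      rw [defect, h.rowVal_eq hTD.mem_dil (n := ((u : ZMod D).val : ℤ)) (D := (D : ℤ))
          (by rw [dil10, h10]; push_cast; field_simp) (by rw [dil11, h11]; simp),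
        h.rowVal_eq hT (n := ((u : ZMod D).val : ℤ) * (s : ℤ) ^ 2) (D := (D : ℤ))
          (by rw [h10]; push_cast; ring) (by rw [h11]; simp),
        ← hFn _ hu, ← hFn _ hus]
      simp [hsw]
    obtain ⟨T, hT, hTd, hTv⟩ := hdiff x
    obtain ⟨T', hT', hTd', hTv'⟩ := hdiff 1
    have := hk T T' hT hT' (by rw [hTd, hTd', sub_self]; exact MulOf.zero)
    rw [hTv, hTv'] at this
    simp only [Units.val_one, one_mul] at this
    rw [← neg_sub (F ((x : ZMod D))), this, neg_sub]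
  -- the shift is a homomorphism to a group of exponent `p`
  let κ : (ZMod D)ˣ → A := fun w => F ((w : ZMod D) ^ 2) - F 1
  have hκ : ∀ v w, κ (v * w) = κ v + κ w := by
    intro v w
    have := key (v ^ 2) w
    simp only [κ, Units.val_mul, Units.val_pow_eq_pow_val, mul_pow] at this ⊢
    rw [← sub_add_sub_cancel, this, add_comm]
  have hκp : ∀ (w : (ZMod D)ˣ) (m : ℕ), κ (w ^ m) = m • κ w := by
    intro w m
    induction m with
    | zero => simp [κ]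
    | succ m ih => rw [pow_succ, hκ, ih, succ_nsmul]
  have hκ0 : ∀ w, κ w = 0 := by
    intro w
    refine h.eq_zero_of_nsmul ((h.hp.coprime_iff_not_dvd).mpr hDp).symm ?_
    rw [← hκp, ZMod.units_pow_card_sub_one_eq_one]
    simp [κ]
  have hn' : (n : ZMod D) ≠ 0 := by rwa [Ne, ZMod.intCast_zmod_eq_zero_iff_dvd]
  have hz' : (z : ZMod D) ≠ 0 := by rwa [Ne, ZMod.intCast_zmod_eq_zero_iff_dvd]
  have hnz : ¬ (D : ℤ) ∣ n * z ^ 2 := by
    rw [← ZMod.intCast_zmod_eq_zero_iff_dvd]; simp [hn', hz']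
  have := key (Units.mk0 _ hn') (Units.mk0 _ hz')
  rw [show F (((Units.mk0 _ hz' : (ZMod D)ˣ) : ZMod D) ^ 2) - F 1 = κ (Units.mk0 _ hz') from rfl,
    hκ0, sub_eq_zero] at this
  rw [← hFn _ hn, ← hFn _ hnz]
  simpa using this

theorem coprime_level {s : ℕ} (hs : s.Prime) (hsq : s ≠ q) (k : ℕ) :
    (N * s ^ k).Coprime q :=
  Nat.Coprime.mul_left ((h.hq.coprime_iff_not_dvd).mpr h.hqN).symm
    (((Nat.coprime_primes hs h.hq).mpr hsq).pow_left k)

/-- The defect vanishes identically. -/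
theorem defect_eq_zero {s : ℕ} (hs : s.Prime) (hsq : s ≠ q) (hsN : (N : ℤ) ∣ (s : ℤ) - 1)
    {g : SL(2, ℚ)} (hg : InD N q s g) : defect φ hs.ne_zero g = 0 := by
  obtain ⟨k, hk⟩ := h.exists_defect_level hs hsq hsN
  set M : ℕ := N * s ^ (2 * (k + 1)) with hM
  have hMz : (N : ℤ) * (s : ℤ) ^ (2 * (k + 1)) = (M : ℤ) := by rw [hM]; push_cast; rfl
  have hMq : M.Coprime q := h.coprime_level hs hsq _
  have hM0 : 0 < M := by
    rw [hM]; exact Nat.mul_pos (Nat.pos_of_ne_zero h.hN) (pow_pos hs.pos _)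
  rw [hMz] at hk
  -- sign
  have hnegD : InD N q s negU := ⟨negU_mem, by simp [MulOf.zero]⟩
  have hneg0 : defect φ hs.ne_zero negU = 0 := by
    refine h.eq_zero_of_two_nsmul ?_
    rw [← h.defect_mul hs.ne_zero hnegD hnegD, negU_mul_negU, defect, h.map_one,
      show dil hs.ne_zero (1 : SL(2, ℚ)) = 1 by simp [dil], h.map_one, sub_zero]
  obtain ⟨y, hy, hy'⟩ := h.exists_inv_d (k + 1) hg
  have hdy : MulOf q M (g 1 1 * y - 1) := by
    refine hy'.of_dvd ?_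
    rw [← hMz, mul_pow, ← pow_mul]
    exact mul_dvd_mul_right (dvd_pow_self _ (by omega)) _
  obtain ⟨D₁, hD₁, hD₁c⟩ := exists_int_congr h.hq hMq (mem_SGamma_iff.mp hg.1).2.2.1 hy hdy
  -- choose the sign of the representative
  obtain ⟨g, hg, heq, D₁, hD₁, hD₁c, hD₁p⟩ : ∃ g', InD N q s g' ∧
      defect φ hs.ne_zero g' = defect φ hs.ne_zero g ∧ ∃ D' : ℤ, MulOf q M ((D' : ℚ) - g' 1 1) ∧
        IsCoprime D' (M : ℤ) ∧ ¬ (p : ℤ) ∣ D' - 1 := by
    by_cases hp1 : (p : ℤ) ∣ D₁ - 1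
    · refine ⟨negU * g, hnegD.mul hg, by rw [h.defect_mul hs.ne_zero hnegD hg, hneg0, zero_add],
        -D₁, ?_, hD₁c.neg_left, fun hp2 => ?_⟩
      · convert hD₁.neg using 1
        rw [mul11]; simp; ring
      · have h3 := dvd_add hp1 hp2
        rw [show D₁ - 1 + (-D₁ - 1) = -2 by ring, dvd_neg] at h3
        have h4 : p ∣ 2 := by exact_mod_cast h3
        exact h.hp2 ((Nat.prime_dvd_prime_iff_eq h.hp Nat.prime_two).mp h4)
    · exact ⟨g, hg, rfl, D₁, hD₁, hD₁c, hp1⟩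
  rw [← heq]
  -- also make it prime to `p`
  obtain ⟨D₂, hD₂M, hD₂c, hD₂p⟩ : ∃ D' : ℤ, (M : ℤ) ∣ D' - D₁ ∧
      IsCoprime D' ((M * p : ℕ) : ℤ) ∧ ¬ (p : ℤ) ∣ D' - 1 := by
    by_cases hpM : p ∣ M
    · refine ⟨D₁, by simp, ?_, hD₁p⟩
      push_cast
      exact hD₁c.mul_right (hD₁c.of_isCoprime_of_dvd_right (Int.natCast_dvd_natCast.mpr hpM))
    · obtain ⟨a, b, hab⟩ : IsCoprime (M : ℤ) (p : ℤ) :=
        Nat.Coprime.isCoprime ((h.hp.coprime_iff_not_dvd).mpr hpM).symm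
      refine ⟨D₁ * (b * p) - a * M, ⟨-(a * (D₁ + 1)), by linear_combination D₁ * hab⟩, ?_, ?_⟩
      · push_cast
        refine IsCoprime.mul_right ?_ ?_
        · obtain ⟨u, v, huv⟩ := hD₁c
          exact ⟨u, v + u * a * (D₁ + 1), by linear_combination huv + u * D₁ * hab⟩
        · exact ⟨-1, (D₁ + 1) * b, by linear_combination hab⟩
      · intro hd
        have e : D₁ * (b * p) - a * M - 1 = (p : ℤ) * (b * (D₁ + 1)) - 2 := by
          linear_combination -hab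
        rw [e, dvd_sub_right (dvd_mul_right _ _)] at hd
        exact h.hp2 ((Nat.prime_dvd_prime_iff_eq h.hp Nat.prime_two).mp (by exact_mod_cast hd))
  obtain ⟨D, hDb, hD, hDm⟩ := Nat.forall_exists_prime_gt_and_zmodEq (M + p + q + s + N)
    (Nat.mul_ne_zero hM0.ne' h.hp.ne_zero) hD₂c
  have hDp : ¬ p ∣ D - 1 := by
    intro hd
    apply hD₂p
    have h1 : (p : ℤ) ∣ D₂ - (D : ℤ) :=
      (Int.natCast_dvd_natCast.mpr (dvd_mul_left p M)).trans hDm.dvd
    have h2 : (p : ℤ) ∣ (D : ℤ) - 1 := by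
      have := Int.natCast_dvd_natCast.mpr hd
      rwa [Nat.cast_sub hD.one_le, Nat.cast_one] at this
    have h3 := dvd_add h1 h2
    rwa [sub_add_sub_cancel] at h3
  have hDN : ¬ D ∣ N := fun hd => by
    have := Nat.le_of_dvd (Nat.pos_of_ne_zero h.hN) hd; omega
  have hs2 : ¬ (D : ℤ) ∣ (s : ℤ) ^ 2 := by
    intro hd
    have := Nat.le_of_dvd hs.pos (hD.dvd_of_dvd_pow (by exact_mod_cast hd : D ∣ s ^ 2))
    omega
  obtain ⟨T, hT, h10, h11⟩ := exists_row N q (isCoprime_row hD hDN hs2)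
  push_cast at h10 h11
  have hTD : InD N q s T := ⟨hT, ⟨1, one_mem _, by rw [h10]; push_cast; ring⟩⟩
  have hz : defect φ hs.ne_zero T = 0 := by
    have hs0 : (s : ℚ) ≠ 0 := Nat.cast_ne_zero.mpr hs.ne_zero
    rw [defect, h.rowVal_eq hTD.mem_dil (n := 1) (D := (D : ℤ))
        (by rw [dil10, h10]; push_cast; field_simp) (by rw [dil11, h11]; simp),
      h.rowVal_eq hT (n := 1 * (s : ℤ) ^ 2) (D := (D : ℤ))
        (by rw [h10]; push_cast; ring) (by rw [h11]; simp),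
      h.rowVal_mul_sq_of_not_one hD hDN hDp ?_ ?_, sub_self]
    · intro hd; exact hD.ne_one (Nat.dvd_one.mp (by exact_mod_cast hd))
    · intro hd; exact hs2 (dvd_pow hd two_ne_zero)
  rw [← hz]
  refine hk g T hg hTD ?_
  have h1 : MulOf q (M : ℤ) (((D₁ - D₂) + (D₂ - (D : ℤ)) : ℤ) : ℚ) :=
    MulOf.of_int (dvd_add (dvd_sub_comm.mp hD₂M)
      ((Int.natCast_dvd_natCast.mpr (dvd_mul_right M p)).trans hDm.dvd))
  rw [h11]
  convert h1.sub hD₁ using 1
  push_cast; ring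

/-- Values only depend on the square class of the lower left entry. -/
theorem rowVal_mul_sq {D : ℕ} (hD : D.Prime) (hDN : ¬ D ∣ N) {n z : ℤ} (hn : ¬ (D : ℤ) ∣ n)
    (hz : ¬ (D : ℤ) ∣ z) : rowVal φ N q D (n * z ^ 2) = rowVal φ N q D n := by
  have : Fact D.Prime := ⟨hD⟩
  have hz' : (z : ZMod D) ≠ 0 := by rwa [Ne, ZMod.intCast_zmod_eq_zero_iff_dvd]
  obtain ⟨s₀, hs1, hs2⟩ := Nat.chineseRemainder
    ((hD.coprime_iff_not_dvd).mpr hDN).symm 1 (z : ZMod D).val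
  have hcop : s₀.Coprime (N * D) := by
    refine Nat.Coprime.mul_right ?_ ?_
    · rw [Nat.coprime_iff_gcd_eq_one, hs1.gcd_eq, Nat.gcd_one_left]
    · refine (hD.coprime_iff_not_dvd.mpr fun hd => hz' ?_).symm
      have : ((s₀ : ℕ) : ZMod D) = ((z : ZMod D).val : ℕ) :=
        (ZMod.natCast_eq_natCast_iff _ _ _).mpr hs2
      rw [(ZMod.natCast_eq_zero_iff _ _).mpr hd, ZMod.natCast_zmod_val] at this
      exact this.symm
  obtain ⟨s, hsb, hs, hsm⟩ := Nat.forall_exists_prime_gt_and_modEq (q + D)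
    (Nat.mul_ne_zero h.hN hD.ne_zero) hcop
  have hsN : (N : ℤ) ∣ (s : ℤ) - 1 := by
    exact_mod_cast (Int.natCast_modEq_iff.mpr ((hsm.of_dvd (dvd_mul_right N D)).trans hs1)).symm.dvd
  have hsw : ((s : ℕ) : ZMod D) = (z : ZMod D) := by
    rw [(ZMod.natCast_eq_natCast_iff _ _ _).mpr ((hsm.of_dvd (dvd_mul_left D N)).trans hs2),
      ZMod.natCast_zmod_val]
  have hns : ¬ (D : ℤ) ∣ n * (s : ℤ) ^ 2 := by
    rw [← ZMod.intCast_zmod_eq_zero_iff_dvd] at hn ⊢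
    simp [hsw, hn, hz']
  have e : rowVal φ N q D (n * z ^ 2) = rowVal φ N q D (n * (s : ℤ) ^ 2) := by
    refine h.rowVal_congr (isCoprime_row hD hDN hns) ?_
    rw [← ZMod.intCast_eq_intCast_iff_dvd_sub]
    simp [hsw]
  obtain ⟨T, hT, h10, h11⟩ := exists_row N q (isCoprime_row hD hDN hns)
  push_cast at h10 h11
  have hTD : InD N q s T := ⟨hT, ⟨(n : ℚ), int_mem_qInts q n, by rw [h10]; push_cast; ring⟩⟩
  have hdef := h.defect_eq_zero hs (by omega) hsN hTD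
  have hs0 : (s : ℚ) ≠ 0 := Nat.cast_ne_zero.mpr hs.ne_zero
  rw [defect, h.rowVal_eq hTD.mem_dil (n := n) (D := (D : ℤ))
      (by rw [dil10, h10]; field_simp) (by rw [dil11, h11]; simp),
    h.rowVal_eq hT (n := n * (s : ℤ) ^ 2) (D := (D : ℤ))
      (by rw [h10]; push_cast; ring) (by rw [h11]; simp), sub_eq_zero] at hdef
  rw [e, hdef]

end IsQHom

end Fermat.Agent.Ihara
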