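import Fermat.Agent.Ihara.Basic
import Fermat.Agent.Ihara.Rep

/-!
# Ihara's lemma: invariance under conjugation by `u(1/ℓ)`

Conjugation by `u(1/L)` has finite order `L` up to inner automorphisms, and the units `q^{2j}` of
`ℤ[1/q]` which are `≡ 1` modulo the lower right entry act on it by scaling.
-/

set_option autoImplicit false

open scoped MatrixGroups

namespace Fermat.Agent.Ihara

variable {A : Type*} [AddCommGroup A] {N q p : ℕ} {φ : SL(2, ℚ) → A}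

/-- Conjugation by `upU w`. -/
def conjU (w : ℚ) (g : SL(2, ℚ)) : SL(2, ℚ) := upU w * g * upU (-w)

section entries

variable (w : ℚ) (g : SL(2, ℚ))

theorem conjU00 : conjU w g 0 0 = g 0 0 + w * g 1 0 := by simp [conjU, mul00]

theorem conjU10 : conjU w g 1 0 = g 1 0 := by simp [conjU, mul10]

theorem conjU11 : conjU w g 1 1 = g 1 1 - w * g 1 0 := by
  simp [conjU, mul11, mul10]; ring

theorem conjU01 : conjU w g 0 1 = g 0 1 + w * (g 1 1 - g 0 0) - w * w * g 1 0 := by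
  simp [conjU, mul00, mul01]; ring

end entries

theorem conjU_mul (w : ℚ) (g h : SL(2, ℚ)) : conjU w (g * h) = conjU w g * conjU w h := by
  simp only [conjU, ← upU_inv]; group

theorem conjU_conjU (v w : ℚ) (g : SL(2, ℚ)) : conjU v (conjU w g) = conjU (v + w) g := by
  have : -(v + w) = -w + -v := by ring
  simp only [conjU, upU_add, this]; group

theorem conjU_zero (g : SL(2, ℚ)) : conjU 0 g = g := by simp [conjU, upU_zero]

theorem conjU_upU (w y : ℚ) : conjU w (upU y) = upU y := by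
  simp only [conjU, ← upU_add]; congr 1; ring

/-- The domain of the invariance statement. -/
def InU (N q L : ℕ) (g : SL(2, ℚ)) : Prop :=
  g ∈ SGamma N q ∧ MulOf q ((N : ℤ) * (L : ℤ) ^ 2) (g 1 0) ∧ MulOf q L (g 0 0 - g 1 1)

namespace InU

variable {L : ℕ} {g h : SL(2, ℚ)}

theorem mem (hg : InU N q L g) : g ∈ SGamma N q := hg.1

theorem cL2 (hg : InU N q L g) : MulOf q ((L : ℤ) ^ 2) (g 1 0) :=
  hg.2.1.of_dvd (dvd_mul_left _ _)

theorem cL (hg : InU N q L g) : MulOf q L (g 1 0) :=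
  hg.cL2.of_dvd (dvd_pow_self _ two_ne_zero)

theorem conj (hg : InU N q L g) (hL : L ≠ 0) (i : ℤ) : InU N q L (conjU ((i : ℚ) / L) g) := by
  obtain ⟨hm, hc, had⟩ := hg
  obtain ⟨h00, h01, h11, h10⟩ := mem_SGamma_iff.mp hm
  obtain ⟨r, hr, hr'⟩ := hc
  obtain ⟨s, hs, hs'⟩ := had
  have hL' : (L : ℚ) ≠ 0 := Nat.cast_ne_zero.mpr hL
  push_cast at hr' hs'
  have e1 : (i : ℚ) / L * g 1 0 = L * ((i : ℚ) * N * r) := by rw [hr']; field_simp
  have hin : (i : ℚ) * N * r ∈ qInts q :=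
    mul_mem (mul_mem (int_mem_qInts q i) (nat_mem_qInts q N)) hr
  refine ⟨mem_SGamma_iff.mpr ⟨?_, ?_, ?_, ?_⟩, ?_, ?_⟩
  · rw [conjU00, e1]; exact add_mem h00 (mul_mem (nat_mem_qInts q L) hin)
  · rw [conjU01]
    have e2 : g 0 1 + (i : ℚ) / L * (g 1 1 - g 0 0) - (i : ℚ) / L * ((i : ℚ) / L) * g 1 0
        = g 0 1 - (i : ℚ) * s - (i : ℚ) * ((i : ℚ) * N * r) := by
      rw [hr', show g 1 1 - g 0 0 = -((L : ℚ) * s) by linarith]; field_simp; ring
    rw [e2]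
    exact sub_mem (sub_mem h01 (mul_mem (int_mem_qInts q i) hs)) (mul_mem (int_mem_qInts q i) hin)
  · rw [conjU11, e1]; exact sub_mem h11 (mul_mem (nat_mem_qInts q L) hin)
  · rw [conjU10]; exact h10
  · rw [conjU10]; exact ⟨r, hr, by push_cast; exact hr'⟩
  · rw [conjU00, conjU11, e1]
    refine ⟨s + 2 * ((i : ℚ) * N * r), add_mem hs (mul_mem (by norm_num) hin), ?_⟩
    push_cast
    linear_combination hs'

theorem conj_one (hg : InU N q L g) (hL : L ≠ 0) : InU N q L (conjU (1 / (L : ℚ)) g) := by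
  simpa using hg.conj hL 1

theorem mul (hg : InU N q L g) (hh : InU N q L h) : InU N q L (g * h) := by
  obtain ⟨hm, hc, had⟩ := hg
  obtain ⟨hm', hc', had'⟩ := hh
  obtain ⟨a00, a01, a11, a10⟩ := mem_SGamma_iff.mp hm
  obtain ⟨b00, b01, b11, b10⟩ := mem_SGamma_iff.mp hm'
  refine ⟨mul_mem hm hm', ?_, ?_⟩
  · rw [mul10]; exact (hc.mul_right b00).add (hc'.mul_left a11)
  · rw [mul00, mul11]
    have e : g 0 0 * h 0 0 + g 0 1 * h 1 0 - (g 1 0 * h 0 1 + g 1 1 * h 1 1)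
        = (g 0 0 - g 1 1) * h 0 0 + g 1 1 * (h 0 0 - h 1 1) + g 0 1 * h 1 0 - g 1 0 * h 0 1 := by
      ring
    rw [e]
    have hcL : MulOf q L (g 1 0) := hc.of_dvd (Dvd.intro_left _ (by ring : (N : ℤ) * L * L = _))
    have hcL' : MulOf q L (h 1 0) := hc'.of_dvd (Dvd.intro_left _ (by ring : (N : ℤ) * L * L = _))
    exact (((had.mul_right b00).add (had'.mul_left a11)).add (hcL'.mul_left a01)).sub
      (hcL.mul_right b01)

theorem upU (y : ℚ) (hy : y ∈ qInts q) : InU N q L (upU y) :=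
  ⟨upU_mem hy, by simp [MulOf.zero], by simp [MulOf.zero]⟩

theorem loU {z : ℚ} (hz : MulOf q ((N : ℤ) * (L : ℤ) ^ 2) z) : InU N q L (loU z) :=
  ⟨loU_mem (hz.of_dvd (dvd_mul_right _ _)), by simpa using hz, by simp [MulOf.zero]⟩

theorem negU : InU N q L (negU : SL(2, ℚ)) :=
  ⟨negU_mem, by simp [MulOf.zero], by simp [MulOf.zero]⟩

end InU

namespace IsQHom

variable (h : IsQHom N q p φ)
include h

theorem conjU_qInts {g : SL(2, ℚ)} (hg : g ∈ SGamma N q) {v : ℚ} (hv : v ∈ qInts q) :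
    φ (conjU v g) = φ g := by
  rw [conjU, ← upU_inv]; exact h.map_conj hg (upU_mem hv)

theorem conjU_eq_of_row {L : ℕ} (hL : L ≠ 0) {E : ℕ} {T : SL(2, ℚ)} (hT : InU N q L T) {D : ℕ}
    (hD : D.Prime) (hDq : D ≠ q) (hTD : T 1 1 = (D : ℚ)) (hE : Nat.gcd (D - 1) L.totient ∣ E)
    (hqL : q.Coprime L) :
    φ (conjU (((q : ℚ) ^ (2 * E)) / L) T) = φ (conjU (1 / (L : ℚ)) T) := by
  have hF : L.totient ≠ 0 := by simpa using hL
  obtain ⟨s, hs⟩ := exists_mul_modEq hF hE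
  set j := (D - 1) * s with hj
  have hDdvd : (D : ℤ) ∣ (q : ℤ) ^ (2 * j) - 1 := by
    have hcop : q.Coprime D := (Nat.coprime_primes h.hq hD).mpr (Ne.symm hDq)
    have h1 := ((Nat.ModEq.pow_totient hcop).pow (2 * s))
    rw [Nat.totient_prime hD, one_pow, ← pow_mul,
      show (D - 1) * (2 * s) = 2 * j by rw [hj]; ring] at h1
    have h2 := (Int.natCast_modEq_iff.mpr h1).symm.dvd
    push_cast at h2
    exact h2
  have hLdvd : (L : ℤ) ∣ (q : ℤ) ^ (2 * E) - (q : ℤ) ^ (2 * j) := by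
    have h2 := (Int.natCast_modEq_iff.mpr (pow_modEq_of_exp_modEq hqL (hs.mul_left 2))).dvd
    push_cast at h2
    exact h2
  obtain ⟨z₀, hz₀⟩ := hDdvd
  obtain ⟨w, hw⟩ := hLdvd
  set η : ℚ := (q : ℚ) ^ (2 * j) with hη
  have hz₀' : η - 1 = (D : ℚ) * z₀ := by rw [hη]; exact_mod_cast hz₀
  have hw' : (q : ℚ) ^ (2 * E) - η = (L : ℚ) * w := by rw [hη]; exact_mod_cast hw
  have hL' : (L : ℚ) ≠ 0 := Nat.cast_ne_zero.mpr hL
  -- replace `q^(2E)` by `η`
  have hcη : InU N q L (conjU (η / L) T) := by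
    simpa [hη] using hT.conj hL ((q : ℤ) ^ (2 * j))
  have e1 : φ (conjU (((q : ℚ) ^ (2 * E)) / L) T) = φ (conjU (η / L) T) := by
    have e : ((q : ℚ) ^ (2 * E)) / L = (w : ℚ) + η / L := by
      field_simp; linear_combination hw'
    rw [e, ← conjU_conjU, h.conjU_qInts hcη.mem (int_mem_qInts q w)]
  rw [e1]
  set u : ℚˣ := (Units.mk0 (q : ℚ) h.q_ne) ^ j with hu
  have huv : (u : ℚ) = (q : ℚ) ^ j := by simp [hu]
  have hdi : diU u ∈ SGamma N q := by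
    rw [mem_SGamma_iff]
    refine ⟨?_, by simp, ?_, by simp [MulOf.zero]⟩
    · simp only [diU00, huv]; exact pow_mem (nat_mem_qInts q q) j
    · simp only [diU11, Units.val_inv_eq_inv_val, huv]; exact pow_inv_mem_qInts h.hq.ne_zero j
  rw [← h.map_conj hcη.mem (inv_mem hdi), inv_inv]
  set z : ℚ := (z₀ : ℚ) * T 1 0 with hz
  have hzL : InU N q L (loU z) := InU.loU (hT.2.1.mul_left (int_mem_qInts q z₀))
  have htr : conjU (1 / (L : ℚ)) (loU z) 0 0 + conjU (1 / (L : ℚ)) (loU z) 1 1 = 2 := by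
    rw [conjU00, conjU11]; simp; ring
  rw [← h.mul_unip_right (hT.conj_one hL).mem (hzL.conj_one hL).mem htr, ← conjU_mul]
  refine h.row_eq (mul_mem (mul_mem (inv_mem hdi) hcη.mem) hdi)
    ((hT.mul hzL).conj_one hL).mem ?_ ?_
  · simp only [mul10, mul11, inv10, inv11, conjU10, diU00, diU10, loU00, loU10]
    rw [huv, hz, hTD]
    rw [hη, two_mul, pow_add] at hz₀'
    linear_combination T 1 0 * hz₀'
  · simp only [mul11, mul10, inv11, inv10, conjU11, conjU10, diU00, diU01, diU10, diU11, loU00,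
      loU01, loU10, loU11, Units.val_inv_eq_inv_val, huv, hz, hTD]
    have hqj : (q : ℚ) ^ j ≠ 0 := pow_ne_zero _ h.q_ne
    field_simp
    rw [hη, two_mul, pow_add] at hz₀' ⊢
    linear_combination (-(T 1 0) * (q : ℚ) ^ j) * hz₀'

theorem conjU_key {ℓ k : ℕ} (hℓ : ℓ.Prime) (hℓq : ℓ ≠ q) (hk : k ≠ 0) {T : SL(2, ℚ)}
    (hT : InU N q (ℓ ^ k) T) :
    φ (conjU (((q : ℚ) ^ (2 * (ℓ * (ℓ - 1)))) / ((ℓ ^ k : ℕ) : ℚ)) T)
      = φ (conjU (1 / ((ℓ ^ k : ℕ) : ℚ)) T) := by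
  set L := ℓ ^ k with hLdef
  have hL : L ≠ 0 := pow_ne_zero _ hℓ.ne_zero
  set E := ℓ * (ℓ - 1)
  set v₁ : ℚ := ((q : ℚ) ^ (2 * E)) / (L : ℚ) with hv₁
  -- invariance of the statement under right multiplication by unipotents of `InU`
  have move : ∀ (i : ℤ) (g P : SL(2, ℚ)), InU N q L g → InU N q L P → P 0 0 + P 1 1 = 2 →
      φ (conjU ((i : ℚ) / L) (g * P)) = φ (conjU ((i : ℚ) / L) g) := by
    intro i g P hg hP htr
    rw [conjU_mul]
    refine h.mul_unip_right (hg.conj hL i).mem (hP.conj hL i).mem ?_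
    rw [conjU00, conjU11]; linear_combination htr
  have hneg : ∀ (i : ℤ) (g : SL(2, ℚ)), InU N q L g →
      φ (conjU ((i : ℚ) / L) (negU * g)) = φ (conjU ((i : ℚ) / L) g) := by
    intro i g hg
    have : conjU ((i : ℚ) / L) (negU * g) = negU * conjU ((i : ℚ) / L) g := by
      simp only [conjU, mul_assoc]
      rw [← mul_assoc, ← negU_comm, mul_assoc]
    rw [this, h.map_neg (hg.conj hL i).mem]
  have cast1 : v₁ = (((q : ℤ) ^ (2 * E) : ℤ) : ℚ) / L := by rw [hv₁]; push_cast; rfl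
  have cast2 : (1 / (L : ℚ)) = (((1 : ℤ)) : ℚ) / L := by simp
  rw [cast1, cast2]
  -- make the lower left entry nonzero
  obtain ⟨T, hT, hc0, hgoal⟩ : ∃ T' : SL(2, ℚ), InU N q L T' ∧ T' 1 0 ≠ 0 ∧
      ∀ i : ℤ, φ (conjU ((i : ℚ) / L) T) = φ (conjU ((i : ℚ) / L) T') := by
    by_cases hc : T 1 0 = 0
    · have hz : InU N q L (loU (((N : ℤ) * (L : ℤ) ^ 2 : ℤ) : ℚ)) := InU.loU MulOf.self
      refine ⟨T * loU (((N : ℤ) * (L : ℤ) ^ 2 : ℤ) : ℚ), hT.mul hz, ?_, fun i => ?_⟩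
      · rw [mul10, hc]
        have hd := det_eq T
        rw [hc, mul_zero, sub_zero] at hd
        simp only [zero_mul, zero_add, loU10]
        refine mul_ne_zero (right_ne_zero_of_mul_eq_one hd) ?_
        have := h.hN
        exact_mod_cast (by positivity : (N : ℤ) * (L : ℤ) ^ 2 ≠ 0)
      · exact (move i T _ hT hz (by simp only [loU00, loU11]; norm_num)).symm
    · exact ⟨T, hT, hc, fun i => rfl⟩
  rw [hgoal, hgoal]
  have hℓ2 : ∀ x : ℚ, MulOf q ((ℓ : ℤ) ^ 2) (x - 1) → MulOf q ((ℓ : ℤ) ^ 2) (-x - 1) → False := by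
    intro x h1 h2
    have h3 := h1.add h2
    have h4 : MulOf q ((ℓ : ℤ) ^ 2) (((-2 : ℤ)) : ℚ) := by
      convert h3 using 1; push_cast; ring
    have hcop : IsCoprime ((ℓ : ℤ) ^ 2) (q : ℤ) :=
      (Nat.Coprime.isCoprime ((Nat.coprime_primes hℓ h.hq).mpr hℓq)).pow_left
    have h5 := Int.natAbs_dvd_natAbs.mpr (MulOf.int_dvd hcop h4)
    simp only [Int.natAbs_pow, Int.natAbs_natCast, Int.reduceNeg, Int.natAbs_neg] at h5
    have h6 : ℓ ^ 2 ≤ 2 := Nat.le_of_dvd two_pos h5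
    have := hℓ.two_le
    nlinarith
  -- choose the sign
  obtain ⟨T, hT, hc0, hd1, hgoal⟩ : ∃ T' : SL(2, ℚ), InU N q L T' ∧ T' 1 0 ≠ 0 ∧
      ¬ MulOf q ((ℓ : ℤ) ^ 2) (T' 1 1 - 1) ∧
      ∀ i : ℤ, φ (conjU ((i : ℚ) / L) T) = φ (conjU ((i : ℚ) / L) T') := by
    by_cases hd : MulOf q ((ℓ : ℤ) ^ 2) (T 1 1 - 1)
    · refine ⟨negU * T, InU.negU.mul hT, by simpa [mul10] using hc0, fun h2 => hℓ2 _ hd ?_,
        fun i => (hneg i T hT).symm⟩
      simpa [mul11] using h2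
    · exact ⟨T, hT, hc0, hd, fun i => rfl⟩
  rw [hgoal, hgoal]
  obtain ⟨h00, h01, h11, h10⟩ := mem_SGamma_iff.mp hT.mem
  obtain ⟨C, u, hC, hCq, hu, hu', hcC⟩ := exists_core h.hq h10.mem hc0
  have hinv : MulOf q C (T 1 1 * T 0 0 - 1) :=
    ⟨u * T 0 1, mul_mem hu h01, by push_cast; rw [← mul_assoc, ← hcC]; linear_combination det_eq T⟩
  obtain ⟨D, hDq, hD, hDd⟩ := exists_prime_congr h.hq hC hCq h11 h00 hinv q
  obtain ⟨r, hr, hr'⟩ := hDd
  push_cast at hr'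
  have hu0 : u ≠ 0 := by rintro rfl; rw [mul_zero] at hcC; exact hc0 hcC
  set T₁ := T * upU (r * u⁻¹) with hT₁
  have hP : InU N q L (upU (r * u⁻¹)) := InU.upU _ (mul_mem hr hu')
  have hgoal : ∀ i : ℤ, φ (conjU ((i : ℚ) / L) T) = φ (conjU ((i : ℚ) / L) T₁) := fun i =>
    (move i T _ hT hP (by simp only [upU00, upU11]; norm_num)).symm
  rw [hgoal, hgoal, ← cast1, ← cast2, hv₁]
  have hTD : T₁ 1 1 = (D : ℚ) := by
    rw [hT₁, mul11, hcC]
    simp only [upU01, upU11]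
    field_simp
    linear_combination -hr'
  refine h.conjU_eq_of_row hL (hT.mul hP) hD (by omega) hTD ?_
    ((Nat.coprime_primes h.hq hℓ).mpr (Ne.symm hℓq) |>.pow_right k)
  refine gcd_dvd_of_not_sq_dvd hℓ fun hdvd => hd1 ?_
  have hdZ : (ℓ : ℤ) ^ 2 ∣ ((D : ℤ) - 1) := by
    have h1 := Int.natCast_dvd_natCast.mpr hdvd
    rw [Nat.cast_sub hD.one_le] at h1
    exact_mod_cast h1
  have hlC : (ℓ : ℤ) ^ 2 ∣ (C : ℤ) := by
    have h1 : MulOf q ((ℓ : ℤ) ^ 2) (((C : ℤ)) : ℚ) := by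
      have h2 := (hT.cL2.mul_right hu').of_dvd (M' := (ℓ : ℤ) ^ 2) (by
        rw [hLdef]; push_cast; rw [← pow_mul]; exact pow_dvd_pow _ (by omega))
      convert h2 using 1
      rw [hcC]; push_cast; field_simp
    exact MulOf.int_dvd
      ((Nat.Coprime.isCoprime ((Nat.coprime_primes hℓ h.hq).mpr hℓq)).pow_left) h1
  have h5 : MulOf q ((ℓ : ℤ) ^ 2) (((D : ℚ) - 1) - ((D : ℚ) - T 1 1)) := by
    refine MulOf.sub ?_ (MulOf.of_dvd hlC ⟨r, hr, by push_cast; exact hr'⟩)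
    simpa using MulOf.of_int (q := q) hdZ
  convert h5 using 1; ring

/-- **The `u(1/ℓ)` trick.** -/
theorem exists_level {ℓ : ℕ} (hℓ : ℓ.Prime) (hℓq : ℓ ≠ q) :
    ∃ k : ℕ, ∀ T, InU N q (ℓ ^ (k + 1)) T → ∀ i : ℤ, φ (conjU ((i : ℚ) / ℓ) T) = φ T := by
  set h0 : ℕ := q ^ (2 * (ℓ * (ℓ - 1))) with hh0
  have h0gt : 1 < h0 := by
    refine Nat.one_lt_pow ?_ h.hq.one_lt
    have := hℓ.two_le
    simp [Nat.sub_eq_zero_iff_le]; omega
  obtain ⟨e, m₀, hm₀, hem⟩ :=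
    Nat.exists_eq_pow_mul_and_not_dvd (n := h0 - 1) (by omega) ℓ hℓ.ne_one
  set k := e + 1 with hk
  set L := ℓ ^ k with hLdef
  have hL : L ≠ 0 := pow_ne_zero _ hℓ.ne_zero
  have hL' : (L : ℚ) ≠ 0 := Nat.cast_ne_zero.mpr hL
  refine ⟨e, ?_⟩
  rw [← hk, ← hLdef]
  let S : AddSubgroup ℤ :=
    { carrier := {w | ∀ T, InU N q L T → φ (conjU ((w : ℚ) / L) T) = φ T}
      zero_mem' := fun T _ => by simp [conjU_zero]
      add_mem' := fun {a b} ha hb T hT => by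
        rw [Int.cast_add, add_div, ← conjU_conjU, ha _ (hT.conj hL b), hb T hT]
      neg_mem' := fun {a} ha T hT => by
        have := ha _ (hT.conj hL (-a))
        rw [conjU_conjU] at this
        push_cast at this ⊢
        rw [neg_div, add_neg_cancel, conjU_zero] at this
        rw [neg_div]; exact this.symm }
  have hLS : (L : ℤ) ∈ S := fun T hT => by
    rw [Int.cast_natCast, div_self hL']; exact h.conjU_qInts hT.mem (one_mem _)
  have hhS : ((h0 : ℤ) - 1) ∈ S := fun T hT => by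
    have hT' := hT.conj hL (-1)
    have h1 := h.conjU_key hℓ hℓq (k := k) (by omega) hT'
    rw [← hLdef, conjU_conjU, conjU_conjU] at h1
    have e1 : (q : ℚ) ^ (2 * (ℓ * (ℓ - 1))) / L + ((-1 : ℤ) : ℚ) / L
        = (((h0 : ℤ) - 1 : ℤ) : ℚ) / L := by
      rw [hh0]; push_cast; ring
    have e2 : 1 / (L : ℚ) + ((-1 : ℤ) : ℚ) / L = 0 := by push_cast; ring
    rwa [e1, e2, conjU_zero] at h1
  have hg : ((ℓ : ℤ) ^ e) ∈ S := by
    have hcop : IsCoprime (ℓ : ℤ) (m₀ : ℤ) :=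
      Nat.Coprime.isCoprime ((hℓ.coprime_iff_not_dvd).mpr hm₀)
    obtain ⟨a, b, hab⟩ := hcop
    have e1 : (ℓ : ℤ) ^ e = a • (L : ℤ) + b • ((h0 : ℤ) - 1) := by
      have : ((h0 - 1 : ℕ) : ℤ) = ((ℓ ^ e * m₀ : ℕ) : ℤ) := by rw [hem]
      rw [Nat.cast_sub (by omega : 1 ≤ h0)] at this
      push_cast at this
      rw [hLdef, hk, this, smul_eq_mul, smul_eq_mul]
      push_cast
      linear_combination (-((ℓ : ℤ) ^ e)) * hab
    rw [e1]
    exact S.add_mem (S.zsmul_mem hLS a) (S.zsmul_mem hhS b)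
  intro T hT i
  have h2 : i • ((ℓ : ℤ) ^ e) ∈ S := S.zsmul_mem hg i
  have h3 := h2 T hT
  have e3 : ((i • ((ℓ : ℤ) ^ e) : ℤ) : ℚ) / L = (i : ℚ) / ℓ := by
    have hℓ0 : (ℓ : ℚ) ≠ 0 := Nat.cast_ne_zero.mpr hℓ.ne_zero
    rw [hLdef, hk, smul_eq_mul]; push_cast; field_simp; ring
  rwa [e3] at h3

end IsQHom

end Fermat.Agent.Ihara
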